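/-
GATE-B / GB-P5-TWSKIP (helper44): **the level where one Taylor–Wiles character has been dropped is
again a B3 `PrimeData` level.**

`skip i₀ : ℕ → ℕ` is the increasing enumeration of `ℕ \ {i₀}`.  For `H : PrimeData N p K r e N'` and
`i₀ < K`:

* `primeData_skip H i₀ hi₀ : PrimeData N p (K - 1) (r ∘ skip i₀) (e ∘ skip i₀) (N' ∘ skip i₀)`
  (same level `N`);
* `piSkip Δs i₀ j hi₀ : (∀ i : Fin j, Δs i) →* (∀ i' : Fin (j - 1), Δs (skip i₀ i'))` forgets the
  `i₀`-th coordinate; it is onto, its kernel is the `i₀`-th factor;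
* `Theta_skip` : the `Theta` of the skipped data is `(piSkip …).comp (Theta … H.psi j)` — so the lower
  level `GammaH (π.comp θ)` of `LowerHom.resLin / coresLin` at `π := piSkip` IS the big level of a
  `PrimeData`, and every B3 / B4 tool applies to it verbatim;
* `exists_tw_skip` : the twist ring homomorphism `tw''` of the lower level, on
  `Hom_par(GammaH ((piSkip …).comp θ_big), O)`, with the SAME diamond representatives `dℓ` as the top
  level (`hdℓ` of the top level is pushed through `piSkip`).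
-/
import Mathlib
import Fermat.Agent.GE8.P3B.GB.B4.Twist.TwInst
import Fermat.Agent.GE8.P3B.StepGen
import Fermat.Agent.GE8.P3B.Ok3W

/- TWIN (helper6 B4 generator; conventions of helper24 / helper86) of `Fermat.Agent.GB.P5.TwSkip` with `p ≠ 3` relaxed to `Ok3A Sy 𝔪 p` / `Ok3W p W` (RISK-5 fix (B), step B4); everything below lives in the wrapper namespace `Fermat.Agent.GE8.P3B`. -/
set_option linter.dupNamespace false
open Fermat Fermat.Agent Fermat.Agent.GB Fermat.Agent.GB.B3 Fermat.Agent.GB.B3.EisGamma0 Fermat.Agent.GB.B3.GamH Fermat.Agent.GB.B3.TWChars Fermat.Agent.GB.B4 Fermat.Agent.GB.B4.Twist Fermat.Agent.GB.B4.Twist.Asm Fermat.Agent.GB.B4.Twist.TwFinal Fermat.Agent.GJ Fermat.Agent.GJ.J2 Fermat.Agent.GJ.J2.Lat Fermat.Agent.GJ.J2.ZStruct Fermat.Agent.GM Fermat.Agent.GM.B Fermat.Agent.GM.EisClass Fermat.Agent.S16_helper49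

namespace Fermat.Agent.GE8.P3B

set_option autoImplicit false

noncomputable section

open scoped MatrixGroups
open CongruenceSubgroup Matrix Matrix.SpecialLinearGroup ModularCurve.Period CuspForm
open S16_helper49 GM.B GM.EisClass
open GB.B3 GB.B3.EisGamma0 GB.B3.GamH
open GJ.J2.ZStruct GJ.J2.Lat
open GB.B4.Twist.Asm GB.B4.Twist.TwFinal
open GB.B3.Tower GB.B3.TWChars
open GB.B4.Twist.TwInst

namespace GB.P5.TwSkip

/-- local instance (Prop-valued class) -/
local instance factPrimeOff21 {S : Set ℕ} (l : PrimesOff S) : Fact (l.1 : ℕ).Prime := ⟨l.1.2⟩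

/-! ### the enumeration of `ℕ \ {i₀}` -/

/-- the increasing enumeration of `ℕ \ {i₀}` -/
def skip (i₀ n : ℕ) : ℕ := if n < i₀ then n else n + 1

theorem skip_of_lt {i₀ n : ℕ} (h : n < i₀) : skip i₀ n = n := if_pos h

theorem skip_of_le {i₀ n : ℕ} (h : i₀ ≤ n) : skip i₀ n = n + 1 := if_neg (not_lt.mpr h)

theorem skip_ne (i₀ n : ℕ) : skip i₀ n ≠ i₀ := by
  unfold skip
  split_ifs with h <;> omega

theorem skip_injective (i₀ : ℕ) : Function.Injective (skip i₀) := by
  intro a b h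
  unfold skip at h
  split_ifs at h <;> omega

theorem skip_lt {i₀ n K : ℕ} (hi₀ : i₀ < K) (hn : n < K - 1) : skip i₀ n < K := by
  unfold skip
  split_ifs <;> omega

theorem le_skip {i₀ n K : ℕ} (hi₀ : i₀ < K) (hn : K - 1 ≤ n) : K ≤ skip i₀ n := by
  unfold skip
  split_ifs <;> omega

theorem skip_lt_iff {i₀ n K : ℕ} (hi₀ : i₀ < K) : skip i₀ n < K ↔ n < K - 1 := by
  unfold skip
  split_ifs <;> omega

/-- every index `≠ i₀` is hit -/
theorem exists_skip_eq {i₀ i : ℕ} (h : i ≠ i₀) : ∃ n, skip i₀ n = i := by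
  rcases lt_or_gt_of_ne h with h1 | h1
  · exact ⟨i, skip_of_lt h1⟩
  · refine ⟨i - 1, ?_⟩
    rw [skip_of_le (by omega)]
    omega

/-- the inverse enumeration -/
def unskip (i₀ i : ℕ) : ℕ := if i < i₀ then i else i - 1

theorem skip_unskip {i₀ i : ℕ} (h : i ≠ i₀) : skip i₀ (unskip i₀ i) = i := by
  unfold skip unskip
  split_ifs <;> omega

theorem unskip_skip (i₀ n : ℕ) : unskip i₀ (skip i₀ n) = n := by
  unfold skip unskip
  split_ifs <;> omega

theorem unskip_lt {i₀ i K : ℕ} (hi₀ : i₀ < K) (hi : i < K) (h : i ≠ i₀) : unskip i₀ i < K - 1 := by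
  unfold unskip
  split_ifs <;> omega

/-! ### the skipped prime data -/

section PD

variable {N p K : ℕ} {r e N' : ℕ → ℕ}

/-- **the prime data with the `i₀`-th prime dropped** (same level `N`) -/
theorem primeData_skip (H : PrimeData N p K r e N') (i₀ : ℕ) (hi₀ : i₀ < K) :
    PrimeData N p (K - 1) (fun n => r (skip i₀ n)) (fun n => e (skip i₀ n))
      (fun n => N' (skip i₀ n)) where
  prime _ hn := H.prime _ (skip_lt hi₀ hn)
  fact _ hn := H.fact _ (skip_lt hi₀ hn)
  cop _ hn := H.cop _ (skip_lt hi₀ hn)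
  cong _ hn := H.cong _ (skip_lt hi₀ hn)
  inj _ _ ha hb hab := H.inj _ _ (skip_lt hi₀ ha) (skip_lt hi₀ hb)
    (fun h => hab (skip_injective i₀ h))
  e_out _ hn := H.e_out _ (le_skip hi₀ hn)

/-- the characters of the skipped data are the characters of the data at the skipped indices -/
theorem psi_skip [NeZero N] (H : PrimeData N p K r e N') (i₀ : ℕ) (hi₀ : i₀ < K) (n : ℕ) :
    (primeData_skip H i₀ hi₀).psi n = H.psi (skip i₀ n) := by
  by_cases hn : n < K - 1
  · rw [(primeData_skip H i₀ hi₀).psi_of_lt n hn, H.psi_of_lt _ (skip_lt hi₀ hn)]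
  · rw [(primeData_skip H i₀ hi₀).psi_of_le n (not_lt.mp hn),
      H.psi_of_le _ (le_skip hi₀ (not_lt.mp hn))]

end PD

/-! ### forgetting a coordinate -/

section PiSkip

variable (Δs : ℕ → Type) [∀ i, CommGroup (Δs i)] {j : ℕ}

/-- forgetting the `i₀`-th coordinate -/
def piSkip (i₀ j : ℕ) (hi₀ : i₀ < j) :
    (∀ i : Fin j, Δs i) →* (∀ i' : Fin (j - 1), Δs (skip i₀ i')) where
  toFun δ i' := δ ⟨skip i₀ i', skip_lt hi₀ i'.2⟩
  map_one' := rfl
  map_mul' _ _ := rfl

theorem piSkip_apply (i₀ j : ℕ) (hi₀ : i₀ < j) (δ : ∀ i : Fin j, Δs i) (i' : Fin (j - 1)) :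
    piSkip Δs i₀ j hi₀ δ i' = δ ⟨skip i₀ i', skip_lt hi₀ i'.2⟩ := rfl

theorem mem_ker_piSkip_iff (i₀ j : ℕ) (hi₀ : i₀ < j) (δ : ∀ i : Fin j, Δs i) :
    δ ∈ (piSkip Δs i₀ j hi₀).ker ↔ ∀ i : Fin j, (i : ℕ) ≠ i₀ → δ i = 1 := by
  rw [MonoidHom.mem_ker]
  constructor
  · intro h i hi
    obtain ⟨i, hij⟩ := i
    obtain ⟨n, rfl⟩ := exists_skip_eq hi
    have hn : n < j - 1 := (skip_lt_iff hi₀).mp hij
    exact congrFun h ⟨n, hn⟩
  · intro h
    funext i'
    rw [piSkip_apply]
    exact h _ (skip_ne i₀ i')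

/-- a section of `piSkip` (extension by `1` at `i₀`) -/
def secSkip (i₀ j : ℕ) (hi₀ : i₀ < j) (ε : ∀ i' : Fin (j - 1), Δs (skip i₀ i')) :
    ∀ i : Fin j, Δs i := fun i =>
  if h : (i : ℕ) = i₀ then 1 else
    cast (congrArg Δs (skip_unskip h)) (ε ⟨unskip i₀ i, unskip_lt hi₀ i.2 h⟩)

theorem secSkip_self (i₀ j : ℕ) (hi₀ : i₀ < j) (ε : ∀ i' : Fin (j - 1), Δs (skip i₀ i'))
    (i : Fin j) (h : (i : ℕ) = i₀) : secSkip Δs i₀ j hi₀ ε i = 1 := dif_pos h

theorem piSkip_secSkip (i₀ j : ℕ) (hi₀ : i₀ < j) (ε : ∀ i' : Fin (j - 1), Δs (skip i₀ i')) :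
    piSkip Δs i₀ j hi₀ (secSkip Δs i₀ j hi₀ ε) = ε := by
  funext i'
  rw [piSkip_apply]
  have hne : skip i₀ (i' : ℕ) ≠ i₀ := skip_ne i₀ i'
  have key : ∀ (a b : Fin (j - 1)) (_ : a = b) (h : Δs (skip i₀ a) = Δs (skip i₀ b)),
      cast h (ε a) = ε b := by
    intro a b hab h
    subst hab
    rfl
  unfold secSkip
  rw [dif_neg hne]
  exact key _ _ (Fin.ext (unskip_skip i₀ i')) _

theorem piSkip_surjective (i₀ j : ℕ) (hi₀ : i₀ < j) :
    Function.Surjective (piSkip Δs i₀ j hi₀) :=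
  fun ε => ⟨secSkip Δs i₀ j hi₀ ε, piSkip_secSkip Δs i₀ j hi₀ ε⟩

/-- the kernel of `piSkip` is the `i₀`-th factor -/
def kerSkipEquiv [DecidableEq (Fin j)] (i₀ : ℕ) (hi₀ : i₀ < j) :
    (piSkip Δs i₀ j hi₀).ker ≃ Δs i₀ where
  toFun δ := δ.1 ⟨i₀, hi₀⟩
  invFun g := ⟨Pi.mulSingle (M := fun i : Fin j => Δs i) ⟨i₀, hi₀⟩ g, by
    rw [mem_ker_piSkip_iff]
    intro i hi
    exact Pi.mulSingle_eq_of_ne (M := fun i : Fin j => Δs i) (i := ⟨i₀, hi₀⟩) (i' := i)
      (fun h => hi (congrArg Fin.val h)) g⟩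
  left_inv δ := by
    apply Subtype.ext
    funext i
    by_cases hi : (i : ℕ) = i₀
    · have e : i = ⟨i₀, hi₀⟩ := Fin.ext hi
      subst e
      exact Pi.mulSingle_eq_same (M := fun i : Fin j => Δs i) _ _
    · have h1 := (mem_ker_piSkip_iff Δs i₀ j hi₀ δ.1).mp δ.2 i hi
      rw [h1]
      exact Pi.mulSingle_eq_of_ne (M := fun i : Fin j => Δs i) (i := ⟨i₀, hi₀⟩) (i' := i)
        (fun h => hi (congrArg Fin.val h)) _
  right_inv g := Pi.mulSingle_eq_same (M := fun i : Fin j => Δs i) _ _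

/-- an element of the kernel has the order of its `i₀`-th coordinate -/
theorem orderOf_of_mem_ker_piSkip (i₀ : ℕ) (hi₀ : i₀ < j) (δ : ∀ i : Fin j, Δs i)
    (hδ : δ ∈ (piSkip Δs i₀ j hi₀).ker) : orderOf δ = orderOf (δ ⟨i₀, hi₀⟩) := by
  rw [mem_ker_piSkip_iff] at hδ
  refine orderOf_eq_orderOf_iff.mpr fun n => ?_
  constructor
  · intro h
    have := congrFun h ⟨i₀, hi₀⟩
    exact this
  · intro h
    funext i
    by_cases hi : (i : ℕ) = i₀
    · have e : i = ⟨i₀, hi₀⟩ := Fin.ext hi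
      subst e
      exact h
    · show δ i ^ n = 1
      rw [hδ i hi, one_pow]

end PiSkip

/-! ### the lower level is the big level of the skipped data -/

section Tw

variable {N p K : ℕ} [NeZero N] {r e N' : ℕ → ℕ} (H : PrimeData N p K r e N')

/-- **the character of the lower level**: forgetting the `i₀`-th coordinate of `Theta` gives the
`Theta` of the skipped prime data -/
theorem Theta_skip (i₀ j : ℕ) (hi₀ : i₀ < K) (hi₀j : i₀ < j) :
    Theta (fun i => Multiplicative (ZMod (p ^ e (skip i₀ i)))) (primeData_skip H i₀ hi₀).psi (j - 1)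
      = (piSkip (fun i => Multiplicative (ZMod (p ^ e i))) i₀ j hi₀j).comp
          (Theta (fun i => Multiplicative (ZMod (p ^ e i))) H.psi j) := by
  refine MonoidHom.ext fun u => ?_
  funext i'
  rw [Theta_apply, psi_skip H i₀ hi₀]
  rfl

theorem Theta_skip_apply (i₀ j : ℕ) (hi₀ : i₀ < K) (hi₀j : i₀ < j) (u : (ZMod N)ˣ) :
    Theta (fun i => Multiplicative (ZMod (p ^ e (skip i₀ i)))) (primeData_skip H i₀ hi₀).psi (j - 1) u
      = piSkip (fun i => Multiplicative (ZMod (p ^ e i))) i₀ j hi₀j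
          (Theta (fun i => Multiplicative (ZMod (p ^ e i))) H.psi j u) := by
  rw [Theta_skip H i₀ j hi₀ hi₀j]
  rfl

/-- the lower character is onto -/
theorem piSkip_comp_Theta_surjective (i₀ j : ℕ) (hj : j ≤ K) (hi₀j : i₀ < j) :
    Function.Surjective ((piSkip (fun i => Multiplicative (ZMod (p ^ e i))) i₀ j hi₀j).comp
      (Theta (fun i => Multiplicative (ZMod (p ^ e i))) H.psi j)) := by
  rw [MonoidHom.coe_comp]
  exact (piSkip_surjective _ i₀ j hi₀j).comp (Theta_surjective H j hj)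

/-- `χ_θ(dd i₀)` lies in the kernel of `piSkip` -/
theorem chi_dd_mem_ker_piSkip (hp : p.Prime) (i₀ j : ℕ) (hi₀j : i₀ < j) :
    chi (Theta (fun i => Multiplicative (ZMod (p ^ e i))) H.psi j) (H.dd hp i₀)
      ∈ (piSkip (fun i => Multiplicative (ZMod (p ^ e i))) i₀ j hi₀j).ker := by
  rw [mem_ker_piSkip_iff]
  intro i hi
  show H.psi i (dUnits N (H.dd hp i₀)) = 1
  exact H.psi_dd_of_ne hp i i₀ hi

/-- `χ_θ(dd i₀)` has order `p ^ e i₀` -/
theorem orderOf_chi_dd (hp : p.Prime) (i₀ j : ℕ) (hi₀j : i₀ < j) :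
    orderOf (chi (Theta (fun i => Multiplicative (ZMod (p ^ e i))) H.psi j) (H.dd hp i₀))
      = p ^ e i₀ := by
  rw [orderOf_of_mem_ker_piSkip _ i₀ hi₀j _ (chi_dd_mem_ker_piSkip H hp i₀ j hi₀j)]
  exact H.orderOf_psi_dd hp i₀

omit [NeZero N] in
/-- the kernel of `piSkip` has `p ^ e i₀` elements -/
theorem natCard_ker_piSkip (hp : p.Prime) (i₀ j : ℕ) (hi₀j : i₀ < j) :
    Nat.card (piSkip (fun i => Multiplicative (ZMod (p ^ e i))) i₀ j hi₀j).ker = p ^ e i₀ := by
  classical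
  rw [Nat.card_congr (kerSkipEquiv (fun i => Multiplicative (ZMod (p ^ e i))) i₀ hi₀j)]
  haveI : NeZero (p ^ e i₀) := ⟨pow_ne_zero _ hp.ne_zero⟩
  rw [Nat.card_eq_fintype_card, Fintype.card_multiplicative, ZMod.card]

omit [NeZero N] in
theorem card_ker_piSkip (hp : p.Prime) (i₀ j : ℕ) (hi₀j : i₀ < j)
    [Fintype (piSkip (fun i => Multiplicative (ZMod (p ^ e i))) i₀ j hi₀j).ker] :
    Fintype.card (piSkip (fun i => Multiplicative (ZMod (p ^ e i))) i₀ j hi₀j).ker = p ^ e i₀ := by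
  rw [← Nat.card_eq_fintype_card]
  exact natCard_ker_piSkip hp i₀ j hi₀j

variable {N'' : ℕ} [NeZero N''] (hp : p.Prime) (hp2 : p ≠ 2) (j : ℕ) (hj : j ≤ K)
  (i₀ : ℕ) (hi₀ : i₀ < j)
  (hN'' : N'' = N * ∏ i' : Fin (j - 1), r (skip i₀ i'))
  (S : Set ℕ) (hS : ∀ q : ℕ, q.Prime → q ∣ N'' → q ∈ S)
  {O : Type*} [CommRing O] [IsDomain O] [CharZero O]
  (dℓ : PrimesOff S → Gamma0 N)
  (hdℓ : ∀ (l : PrimesOff S) (u : (ZMod N)ˣ), (u : ZMod N) = ((l.1 : ℕ) : ZMod N) →
    chi (Theta (fun i => Multiplicative (ZMod (p ^ e i))) H.psi j) (dℓ l) ^ 2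
      * Theta (fun i => Multiplicative (ZMod (p ^ e i))) H.psi j u = 1)

include hdℓ in
/-- the `hdℓ` of the top level, pushed to the lower level (SAME `dℓ`) -/
theorem hdℓ_skip (l : PrimesOff S) (u : (ZMod N)ˣ) (hu : (u : ZMod N) = ((l.1 : ℕ) : ZMod N)) :
    chi ((piSkip (fun i => Multiplicative (ZMod (p ^ e i))) i₀ j hi₀).comp
        (Theta (fun i => Multiplicative (ZMod (p ^ e i))) H.psi j)) (dℓ l) ^ 2
      * ((piSkip (fun i => Multiplicative (ZMod (p ^ e i))) i₀ j hi₀).comp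
        (Theta (fun i => Multiplicative (ZMod (p ^ e i))) H.psi j)) u = 1 := by
  have h := congrArg (piSkip (fun i => Multiplicative (ZMod (p ^ e i))) i₀ j hi₀) (hdℓ l u hu)
  rw [map_mul, map_pow, map_one] at h
  exact h

omit [NeZero N] [NeZero N''] in
include hN'' in
theorem dvd_level_skip : N ∣ N'' := by
  rw [hN'']
  exact Dvd.intro _ rfl

include hp hp2 hj hdℓ in
/-- **the twist ring homomorphism of the lower level** `GammaH (π.comp θ_big)`,
`π = piSkip` forgetting the `i₀`-th Taylor–Wiles character, `θ_big = Theta … H.psi j`; same diamond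
representatives `dℓ` as the top level.  The forms level is `N'' = N * ∏_{i ≠ i₀} r i`. -/
theorem exists_tw_skip :
    ∃ tw : ↥(heckeAlgebra N'' 2 S) →+* Module.End O ↥(parabolicHoms O
        (GammaH ((piSkip (fun i => Multiplicative (ZMod (p ^ e i))) i₀ j hi₀).comp
          (Theta (fun i => Multiplicative (ZMod (p ^ e i))) H.psi j))) O),
      (∀ (l : PrimesOff S) (v : ↥(parabolicHoms O
          (GammaH ((piSkip (fun i => Multiplicative (ZMod (p ^ e i))) i₀ j hi₀).comp
            (Theta (fun i => Multiplicative (ZMod (p ^ e i))) H.psi j))) O)),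
        ((tw (formsGenS N'' S l) v : ↥(parabolicHoms O
            (GammaH ((piSkip (fun i => Multiplicative (ZMod (p ^ e i))) i₀ j hi₀).comp
              (Theta (fun i => Multiplicative (ZMod (p ^ e i))) H.psi j))) O)) :
            Additive (GammaH ((piSkip (fun i => Multiplicative (ZMod (p ^ e i))) i₀ j hi₀).comp
              (Theta (fun i => Multiplicative (ZMod (p ^ e i))) H.psi j))) →+ O)
          = diaH ((piSkip (fun i => Multiplicative (ZMod (p ^ e i))) i₀ j hi₀).comp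
              (Theta (fun i => Multiplicative (ZMod (p ^ e i))) H.psi j)) O (dℓ l)
              (GamH.TH ((piSkip (fun i => Multiplicative (ZMod (p ^ e i))) i₀ j hi₀).comp
                (Theta (fun i => Multiplicative (ZMod (p ^ e i))) H.psi j)) O
                (not_dvd_level S hS (dvd_level_skip (r := r) j i₀ hN'') l)
                (v : Additive (GammaH
                  ((piSkip (fun i => Multiplicative (ZMod (p ^ e i))) i₀ j hi₀).comp
                    (Theta (fun i => Multiplicative (ZMod (p ^ e i))) H.psi j))) →+ O))) ∧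
      (∀ (l : PrimesOff S) (v : ↥(parabolicHoms O
          (GammaH ((piSkip (fun i => Multiplicative (ZMod (p ^ e i))) i₀ j hi₀).comp
            (Theta (fun i => Multiplicative (ZMod (p ^ e i))) H.psi j))) O)),
        ((tw (heckeAlgebra.T l.1.2 (not_dvd_level' S hS l) l.2) v : ↥(parabolicHoms O
            (GammaH ((piSkip (fun i => Multiplicative (ZMod (p ^ e i))) i₀ j hi₀).comp
              (Theta (fun i => Multiplicative (ZMod (p ^ e i))) H.psi j))) O)) :
            Additive (GammaH ((piSkip (fun i => Multiplicative (ZMod (p ^ e i))) i₀ j hi₀).comp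
              (Theta (fun i => Multiplicative (ZMod (p ^ e i))) H.psi j))) →+ O)
          = diaH ((piSkip (fun i => Multiplicative (ZMod (p ^ e i))) i₀ j hi₀).comp
              (Theta (fun i => Multiplicative (ZMod (p ^ e i))) H.psi j)) O (dℓ l)
              (GamH.TH ((piSkip (fun i => Multiplicative (ZMod (p ^ e i))) i₀ j hi₀).comp
                (Theta (fun i => Multiplicative (ZMod (p ^ e i))) H.psi j)) O
                (not_dvd_level S hS (dvd_level_skip (r := r) j i₀ hN'') l)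
                (v : Additive (GammaH
                  ((piSkip (fun i => Multiplicative (ZMod (p ^ e i))) i₀ j hi₀).comp
                    (Theta (fun i => Multiplicative (ZMod (p ^ e i))) H.psi j))) →+ O))) := by
  have hi₀K : i₀ < K := lt_of_lt_of_le hi₀ hj
  have hj' : j - 1 ≤ K - 1 := Nat.sub_le_sub_right hj 1
  have key := exists_tw_primeData (N'' := N'') (O := O) (primeData_skip H i₀ hi₀K) hp hp2 (j - 1)
    hj' hN'' S hS dℓ (by
      intro l u hu
      rw [Theta_skip H i₀ j hi₀K hi₀]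
      exact hdℓ_skip H j i₀ hi₀ S dℓ hdℓ l u hu)
  rw [Theta_skip H i₀ j hi₀K hi₀] at key
  exact key

end Tw

end GB.P5.TwSkip

end

end Fermat.Agent.GE8.P3B
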