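/-
GATE-B / GB-P5-1PT-STEP2 (helper49): **descent of `res` / `cores` to the Taylor–Wiles levels.**

`B` a big level (`s` framed diamonds in front, `k` Taylor–Wiles diamonds) realised (`R`) as the
`𝔪`-primary part of an ambient Hecke module `L` (`= Hom(Γ_H, O)`); `L''` a second ambient module
(`= Hom(Γ_{H''}, O)`, one Taylor–Wiles character dropped) with equivariant maps `res : L'' → L`,
`cores : L → L''`.  Then `res`, `cores` induce maps between

* `Plow := (L'')_𝔪` and `B.M` (`resB`, `coresB`), and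
* the coinvariants `Y γ := FamCoinv (Elow) γ` of `Plow` and `FamCoinv (frD B) γ` of `B.M`
  (`= (Plug.tw …).L1.M` for `γ = 1`, `(Plug.tw …).Lχ.M` for `γ = c`)  (`resM`, `coresM`),

compatible with all operators induced from intertwined operators of `L`, `L''`
(`resM_indM`), and with `res ∘ cores` (`resM_coresM`).
-/
import Mathlib
import Fermat.Agent.GB.B3.ChiLevelMulti
import Fermat.Agent.GB.B3.Realizes
import Fermat.Agent.GB.B3.Base
import Fermat.Agent.GE8.P3B.GB.B3.LocTransport
import Fermat.Agent.GE8.P3B.StepGen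
import Fermat.Agent.GE8.P3B.Ok3W

/- TWIN (helper6 B4 generator; conventions of helper24 / helper86) of `Fermat.Agent.GB.P5.LowerLevel` with `p ≠ 3` relaxed to `Ok3A Sy 𝔪 p` / `Ok3W p W` (RISK-5 fix (B), step B4); everything below lives in the wrapper namespace `Fermat.Agent.GE8.P3B`. -/
set_option linter.dupNamespace false
open Fermat Fermat.Agent Fermat.Agent.GB Fermat.Agent.GB.B3 Fermat.Agent.GB.B3.Base Fermat.Agent.GB.B3.Chi Fermat.Agent.GB.B3.ChiLevelMulti Fermat.Agent.GB.B3.RealLevel Fermat.Agent.GB.B3.TWLevel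

namespace Fermat.Agent.GE8.P3B

set_option autoImplicit false
set_option linter.unusedSectionVars false
set_option linter.style.haveILetI false

namespace GB.P5.LowerLevel

open Module Submodule GB.B3.TWLevel GB.B3.RealLevel
  GB.B3.ChiLevelMulti GB.B3.Base GB.B3.Chi

variable {O : Type} [CommRing O] {A : Type} [CommRing A] [Algebra O A]
  {M0 : Type} [AddCommGroup M0] [Module O M0] {act0 : A →ₐ[O] Module.End O M0}
  {s k : ℕ} {Nk : Fin (s + k) → ℕ} {B : FreeLevel O A M0 act0 (s + k) Nk}
  {L : Type} [AddCommGroup L] [Module O L] {actL : A →ₐ[O] Module.End O L} {𝔪 : Ideal A}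
  {E : Fin (s + k) → Module.End O L} (R : Realizes B actL 𝔪 E)

/-! ### operators of the ambient module induced on the level -/

section IndB

theorem isLoc_ι (x : B.M) : IsLoc actL 𝔪 (R.ι x) := (R.range _).1 ⟨x, rfl⟩

/-- the level as the `𝔪`-primary part of the ambient module -/
noncomputable def equivLoc : B.M ≃ₗ[O] locSub actL 𝔪 :=
  LinearEquiv.ofBijective (R.ι.codRestrict (locSub actL 𝔪) (fun x => isLoc_ι R x))
    ⟨fun x y h => R.inj (congrArg Subtype.val h), fun z => by
      obtain ⟨x, hx⟩ := (R.range z.1).2 z.2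
      exact ⟨x, Subtype.ext hx⟩⟩

theorem coe_equivLoc (x : B.M) : ((equivLoc R x : locSub actL 𝔪) : L) = R.ι x := rfl

theorem ι_equivLoc_symm (z : locSub actL 𝔪) : R.ι ((equivLoc R).symm z) = (z : L) := by
  have h := (equivLoc R).apply_symm_apply z
  exact congrArg Subtype.val h

/-- the operator of the level induced by an operator of the ambient module preserving the
`𝔪`-primary part -/
noncomputable def indB (f : Module.End O L) (hf : ∀ x, IsLoc actL 𝔪 x → IsLoc actL 𝔪 (f x)) :
    Module.End O B.M :=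
  (equivLoc R).symm.toLinearMap ∘ₗ
    (f.restrict (p := locSub actL 𝔪) (q := locSub actL 𝔪) fun x hx => hf x hx) ∘ₗ
      (equivLoc R).toLinearMap

theorem ι_indB (f : Module.End O L) (hf : ∀ x, IsLoc actL 𝔪 x → IsLoc actL 𝔪 (f x)) (x : B.M) :
    R.ι (indB R f hf x) = f (R.ι x) := by
  show R.ι ((equivLoc R).symm _) = _
  rw [ι_equivLoc_symm]
  rfl

/-- an operator commuting with the action preserves the `𝔪`-primary part -/
theorem isLoc_of_commute (f : Module.End O L) (hf : ∀ t, f * actL t = actL t * f) (x : L)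
    (hx : IsLoc actL 𝔪 x) : IsLoc actL 𝔪 (f x) := by
  intro t ht
  obtain ⟨y, rfl⟩ := hx t ht
  refine ⟨f y, ?_⟩
  have h := congrArg (fun g : Module.End O L => g y) (hf t)
  simp only [Module.End.mul_apply] at h
  exact h.symm

theorem indB_comm_D (f : Module.End O L) (hf : ∀ x, IsLoc actL 𝔪 x → IsLoc actL 𝔪 (f x))
    (i : Fin (s + k)) (hfE : f * E i = E i * f) : indB R f hf * B.D i = B.D i * indB R f hf := by
  refine LinearMap.ext fun x => R.inj ?_
  rw [Module.End.mul_apply, Module.End.mul_apply, ι_indB, R.ι_D, R.ι_D, ι_indB]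
  have h := congrArg (fun g : Module.End O L => g (R.ι x)) hfE
  simpa only [Module.End.mul_apply] using h

/-- the operator induced on the coinvariants `FamCoinv (frD B) γ` -/
noncomputable def indM (γ : Fin s → O) (f : Module.End O L)
    (hf : ∀ x, IsLoc actL 𝔪 x → IsLoc actL 𝔪 (f x))
    (hfE : ∀ v : Fin s, f * E (Fin.castAdd k v) = E (Fin.castAdd k v) * f) :
    Module.End O (FamCoinv (frD B) γ) :=
  indF (frD B) γ (indB R f hf) (fun v => indB_comm_D R f hf _ (hfE v))

theorem indM_fmk (γ : Fin s → O) (f : Module.End O L)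
    (hf : ∀ x, IsLoc actL 𝔪 x → IsLoc actL 𝔪 (f x))
    (hfE : ∀ v : Fin s, f * E (Fin.castAdd k v) = E (Fin.castAdd k v) * f) (x : B.M) :
    indM R γ f hf hfE (fmk (frD B) γ x) = fmk (frD B) γ (indB R f hf x) := rfl

end IndB

/-! ### the lower level -/

section Lower

variable {L'' : Type} [AddCommGroup L''] [Module O L''] (actL'' : A →ₐ[O] Module.End O L'')
  (E'' : Fin (s + k) → Module.End O L'')
  (hE''act : ∀ i t, E'' i * actL'' t = actL'' t * E'' i)
  (res : L'' →ₗ[O] L) (cores : L →ₗ[O] L'')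
  (hres_act : ∀ t y, res (actL'' t y) = actL t (res y))
  (hcores_act : ∀ t x, cores (actL t x) = actL'' t (cores x))
  (hres_E : ∀ i y, res (E'' i y) = E i (res y))
  (hcores_E : ∀ i x, cores (E i x) = E'' i (cores x))

/-- the `𝔪`-primary part of the lower ambient module -/
abbrev Plow : Submodule O L'' := locSub actL'' 𝔪

/-- operators of `L''` preserving the primary part, restricted -/
noncomputable def restrP (f : Module.End O L'')
    (hf : ∀ y, IsLoc actL'' 𝔪 y → IsLoc actL'' 𝔪 (f y)) :
    Module.End O (Plow (𝔪 := 𝔪) actL'') :=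
  f.restrict fun y hy => hf y hy

theorem coe_restrP (f : Module.End O L'')
    (hf : ∀ y, IsLoc actL'' 𝔪 y → IsLoc actL'' 𝔪 (f y)) (y : Plow (𝔪 := 𝔪) actL'') :
    ((restrP actL'' f hf y : Plow (𝔪 := 𝔪) actL'') : L'') = f (y : L'') := rfl

include hE''act in
theorem isLoc_E'' (i : Fin (s + k)) (y : L'') (hy : IsLoc actL'' 𝔪 y) :
    IsLoc actL'' 𝔪 (E'' i y) := by
  intro t ht
  obtain ⟨z, rfl⟩ := hy t ht
  refine ⟨E'' i z, ?_⟩
  have h := congrArg (fun g : Module.End O L'' => g z) (hE''act i t)
  simp only [Module.End.mul_apply] at h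
  exact h.symm

/-- the framed diamonds of the lower level -/
noncomputable def Elow (v : Fin s) : Module.End O (Plow (𝔪 := 𝔪) actL'') :=
  restrP actL'' (E'' (Fin.castAdd k v)) (isLoc_E'' actL'' E'' hE''act _)

/-- the coinvariants of the lower level -/
abbrev Y (γ : Fin s → O) : Type := FamCoinv (Elow (𝔪 := 𝔪) actL'' E'' hE''act) γ

include hres_act in
theorem isLoc_res (y : L'') (hy : IsLoc actL'' 𝔪 y) : IsLoc actL 𝔪 (res y) :=
  GB.B3.LocTransport.isLoc_map actL'' actL res.toAddMonoidHom hres_act 𝔪 hy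

include hcores_act in
theorem isLoc_cores (x : L) (hx : IsLoc actL 𝔪 x) : IsLoc actL'' 𝔪 (cores x) :=
  GB.B3.LocTransport.isLoc_map actL actL'' cores.toAddMonoidHom hcores_act 𝔪 hx

/-- `res` between the primary parts, landing in the level -/
noncomputable def resB : Plow (𝔪 := 𝔪) actL'' →ₗ[O] B.M :=
  (equivLoc R).symm.toLinearMap ∘ₗ
    (res.restrict (p := locSub actL'' 𝔪) (q := locSub actL 𝔪)
      fun y hy => isLoc_res actL'' res hres_act y hy)

theorem ι_resB (y : Plow (𝔪 := 𝔪) actL'') :
    R.ι (resB R actL'' res hres_act y) = res (y : L'') := by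
  show R.ι ((equivLoc R).symm _) = _
  rw [ι_equivLoc_symm]
  rfl

/-- `cores` from the level to the lower primary part -/
noncomputable def coresB : B.M →ₗ[O] Plow (𝔪 := 𝔪) actL'' :=
  (cores.restrict (p := locSub actL 𝔪) (q := locSub actL'' 𝔪)
      fun x hx => isLoc_cores actL'' cores hcores_act x hx) ∘ₗ (equivLoc R).toLinearMap

theorem coe_coresB (x : B.M) :
    ((coresB R actL'' cores hcores_act x : Plow (𝔪 := 𝔪) actL'') : L'') = cores (R.ι x) := rfl

include hres_E in
theorem resB_Elow (v : Fin s) (y : Plow (𝔪 := 𝔪) actL'') :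
    resB R actL'' res hres_act (Elow actL'' E'' hE''act v y)
      = frD B v (resB R actL'' res hres_act y) := by
  refine R.inj ?_
  rw [ι_resB, R.ι_D, ι_resB]
  exact hres_E _ _

include hcores_E in
theorem coresB_frD (v : Fin s) (x : B.M) :
    coresB R actL'' cores hcores_act (frD B v x)
      = Elow actL'' E'' hE''act v (coresB R actL'' cores hcores_act x) := by
  refine Subtype.ext ?_
  rw [coe_coresB, R.ι_D]
  exact hcores_E _ _

include hres_E in
theorem famRange_le_comap_resB (γ : Fin s → O) :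
    famRange (Elow (𝔪 := 𝔪) actL'' E'' hE''act) γ
      ≤ (famRange (frD B) γ).comap (resB R actL'' res hres_act) := by
  refine iSup_le fun v => ?_
  rintro _ ⟨y, rfl⟩
  rw [Submodule.mem_comap]
  refine chiRange_le_famRange (frD B) γ v ⟨resB R actL'' res hres_act y, ?_⟩
  simp only [LinearMap.sub_apply, LinearMap.smul_apply, LinearMap.id_apply, map_sub, map_smul]
  rw [resB_Elow R actL'' E'' hE''act res hres_act hres_E]

include hcores_E in
theorem famRange_le_comap_coresB (γ : Fin s → O) :
    famRange (frD B) γ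
      ≤ (famRange (Elow (𝔪 := 𝔪) actL'' E'' hE''act) γ).comap
          (coresB R actL'' cores hcores_act) := by
  refine iSup_le fun v => ?_
  rintro _ ⟨x, rfl⟩
  rw [Submodule.mem_comap]
  refine chiRange_le_famRange (Elow (𝔪 := 𝔪) actL'' E'' hE''act) γ v
    ⟨coresB R actL'' cores hcores_act x, ?_⟩
  simp only [LinearMap.sub_apply, LinearMap.smul_apply, LinearMap.id_apply, map_sub, map_smul]
  rw [coresB_frD R actL'' E'' hE''act cores hcores_act hcores_E]

/-- `res` on the coinvariants -/
noncomputable def resM (γ : Fin s → O) :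
    Y (𝔪 := 𝔪) actL'' E'' hE''act γ →ₗ[O] FamCoinv (frD B) γ :=
  mapQ _ _ (resB R actL'' res hres_act)
    (famRange_le_comap_resB R actL'' E'' hE''act res hres_act hres_E γ)

/-- `cores` on the coinvariants -/
noncomputable def coresM (γ : Fin s → O) :
    FamCoinv (frD B) γ →ₗ[O] Y (𝔪 := 𝔪) actL'' E'' hE''act γ :=
  mapQ _ _ (coresB R actL'' cores hcores_act)
    (famRange_le_comap_coresB R actL'' E'' hE''act cores hcores_act hcores_E γ)

theorem resM_fmk (γ : Fin s → O) (y : Plow (𝔪 := 𝔪) actL'') :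
    resM R actL'' E'' hE''act res hres_act hres_E γ (fmk _ γ y)
      = fmk (frD B) γ (resB R actL'' res hres_act y) := rfl

theorem coresM_fmk (γ : Fin s → O) (x : B.M) :
    coresM R actL'' E'' hE''act cores hcores_act hcores_E γ (fmk (frD B) γ x)
      = fmk _ γ (coresB R actL'' cores hcores_act x) := rfl

/-- **`res ∘ cores` on the coinvariants** is induced by `res ∘ cores` on the ambient module -/
theorem resM_coresM (γ : Fin s → O) (g : Module.End O L)
    (hg : ∀ x, IsLoc actL 𝔪 x → IsLoc actL 𝔪 (g x))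
    (hrc : ∀ x, res (cores x) = g x) (x : B.M) :
    resM R actL'' E'' hE''act res hres_act hres_E γ
        (coresM R actL'' E'' hE''act cores hcores_act hcores_E γ (fmk (frD B) γ x))
      = fmk (frD B) γ (indB R g hg x) := by
  rw [coresM_fmk, resM_fmk]
  congr 1
  refine R.inj ?_
  rw [ι_resB, coe_coresB, ι_indB, hrc]

/-- **intertwined operators stay intertwined on the coinvariants** -/
theorem resM_ind (γ : Fin s → O) (f : Module.End O L) (f'' : Module.End O L'')
    (hf : ∀ x, IsLoc actL 𝔪 x → IsLoc actL 𝔪 (f x))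
    (hfE : ∀ v : Fin s, f * E (Fin.castAdd k v) = E (Fin.castAdd k v) * f)
    (hf'' : ∀ y, IsLoc actL'' 𝔪 y → IsLoc actL'' 𝔪 (f'' y))
    (hf''E : ∀ v : Fin s, restrP actL'' f'' hf'' * Elow (𝔪 := 𝔪) actL'' E'' hE''act v
      = Elow actL'' E'' hE''act v * restrP actL'' f'' hf'')
    (hint : ∀ y, res (f'' y) = f (res y)) (y : Y (𝔪 := 𝔪) actL'' E'' hE''act γ) :
    resM R actL'' E'' hE''act res hres_act hres_E γ
        (indF (Elow (𝔪 := 𝔪) actL'' E'' hE''act) γ (restrP actL'' f'' hf'') hf''E y)
      = indM R γ f hf hfE (resM R actL'' E'' hE''act res hres_act hres_E γ y) := by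
  obtain ⟨y, rfl⟩ := fmk_surjective _ γ y
  rw [indF_fmk, resM_fmk, resM_fmk, indM_fmk]
  congr 1
  refine R.inj ?_
  rw [ι_resB, ι_indB, ι_resB, coe_restrP, hint]

end Lower

end GB.P5.LowerLevel

end Fermat.Agent.GE8.P3B
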