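/-
GATE-B / GB-P5-1PT-STEP2 (helper49): `LowerPoint.exists_point_lower` with the LOWER Hecke ring
discharged: the lower Hecke ring is the image ring `ImageRing.TQ O θ̄ ρ` of a ring homomorphism
`ρ : A'' →+* End_O (Plow)` (the twisted Hecke action on the `𝔪`-primary part of the lower ambient
module), commuting with the framed diamonds, with residual character `θ̄` (`ImageRing.LocHyp`), and
generators `g j` acting as `f'' j`.  Output: an `O`-algebra point of `Carrier.Tloc O θ̄` (the
localised Hecke ring of the lower level) with the same values on the generators.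
-/
import Mathlib
import Fermat.Agent.GE8.P3B.GB.P5.LowerPoint2
import Fermat.Agent.GB.P5.IndRing
import Fermat.Agent.GB.B4.Datum.Lift
import Fermat.Agent.GE8.P3B.StepGen
import Fermat.Agent.GE8.P3B.Ok3W

/- TWIN (helper6 B4 generator; conventions of helper24 / helper86) of `Fermat.Agent.GB.P5.LowerPoint3` with `p ≠ 3` relaxed to `Ok3A Sy 𝔪 p` / `Ok3W p W` (RISK-5 fix (B), step B4); everything below lives in the wrapper namespace `Fermat.Agent.GE8.P3B`. -/
set_option linter.dupNamespace false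
open Fermat Fermat.Agent Fermat.Agent.GB Fermat.Agent.GB.B3 Fermat.Agent.GB.B3.Base Fermat.Agent.GB.B3.Chi Fermat.Agent.GB.B3.ChiLevelMulti Fermat.Agent.GB.B3.RealLevel Fermat.Agent.GB.B3.TWLevel Fermat.Agent.GB.B4 Fermat.Agent.GB.B4.Datum Fermat.Agent.GB.B4.Datum.Carrier Fermat.Agent.GB.B4.Datum.ImageRing Fermat.Agent.GB.P5 Fermat.Agent.GB.P5.IndRing

namespace Fermat.Agent.GE8.P3B

set_option autoImplicit false
set_option linter.unusedSectionVars false
set_option linter.style.haveILetI false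

namespace GB.P5.LowerPoint

open Module Submodule GB.B3.TWLevel GB.B3.RealLevel
  GB.B3.ChiLevelMulti GB.B3.Base GB.B3.Chi
  GB.P5.LowerLevel GB.P5.IndRing
  GB.B4.Datum.ImageRing GB.B4.Datum.Carrier

variable {O : Type} [CommRing O] [IsLocalRing O] {A : Type} [CommRing A] [Algebra O A]
  {M0 : Type} [AddCommGroup M0] [Module O M0] {act0 : A →ₐ[O] Module.End O M0}
  {s k : ℕ} {Nk : Fin (s + k) → ℕ} {B : FreeLevel O A M0 act0 (s + k) Nk}
  {L : Type} [AddCommGroup L] [Module O L] {actL : A →ₐ[O] Module.End O L} {𝔪 : Ideal A}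
  {E : Fin (s + k) → Module.End O L} (R : Realizes B actL 𝔪 E)
  {L'' : Type} [AddCommGroup L''] [Module O L''] (actL'' : A →ₐ[O] Module.End O L'')
  (E'' : Fin (s + k) → Module.End O L'')
  (hE''act : ∀ i t, E'' i * actL'' t = actL'' t * E'' i)
  (res : L'' →ₗ[O] L) (cores : L →ₗ[O] L'')
  (hres_act : ∀ t y, res (actL'' t y) = actL t (res y))
  (hcores_act : ∀ t x, cores (actL t x) = actL'' t (cores x))
  (hres_E : ∀ i y, res (E'' i y) = E i (res y))
  (hcores_E : ∀ i x, cores (E i x) = E'' i (cores x))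

/-- generators of a ring generate the image ring as an algebra -/
theorem adjoin_chi_range {P : Type} [AddCommGroup P] [Module O P] {A'' : Type} [CommRing A'']
    (θb : A'' →+* IsLocalRing.ResidueField O) (ρ : A'' →+* Module.End O P)
    {ι : Type*} (g : ι → A'') (hg : Subring.closure (Set.range g) = ⊤) :
    Algebra.adjoin O (Set.range fun j => chi O θb ρ (g j)) = ⊤ := by
  rw [eq_top_iff, ← adjoin_range_chi O θb ρ]
  refine Algebra.adjoin_le ?_
  rintro _ ⟨t, rfl⟩
  have ht : t ∈ Subring.closure (Set.range g) := by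
    rw [hg]
    exact Subring.mem_top t
  induction ht using Subring.closure_induction with
  | mem x hx =>
    obtain ⟨l, rfl⟩ := hx
    exact Algebra.subset_adjoin ⟨l, rfl⟩
  | zero => rw [map_zero]; exact Subalgebra.zero_mem _
  | one => rw [map_one]; exact Subalgebra.one_mem _
  | add x y _ _ hx hy => rw [map_add]; exact Subalgebra.add_mem _ hx hy
  | neg x _ hx => rw [map_neg]; exact Subalgebra.neg_mem _ hx
  | mul x y _ _ hx hy => rw [map_mul]; exact Subalgebra.mul_mem _ hx hy

/-- a point of an algebra generated by elements whose values are values of a second point has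
its range inside the range of the second point -/
theorem range_le_of_gen {T T'' Ω : Type*} [CommRing T] [Algebra O T] [CommRing T''] [Algebra O T'']
    [CommRing Ω] [Algebra O Ω] (θ'' : T'' →ₐ[O] Ω) (θ : T →ₐ[O] Ω) {ι : Type*}
    (τ'' : ι → T'') (τ : ι → T) (hgen : Algebra.adjoin O (Set.range τ'') = ⊤)
    (h : ∀ j, θ'' (τ'' j) = θ (τ j)) (x : T'') : θ'' x ∈ θ.range := by
  have hx : x ∈ Algebra.adjoin O (Set.range τ'') := by
    rw [hgen]
    exact Algebra.mem_top
  induction hx using Algebra.adjoin_induction with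
  | mem y hy =>
    obtain ⟨j, rfl⟩ := hy
    exact ⟨τ j, (h j).symm⟩
  | algebraMap r => exact ⟨algebraMap O T r, (θ.commutes r).trans (θ''.commutes r).symm⟩
  | add y z _ _ hy hz => rw [map_add]; exact Subalgebra.add_mem _ hy hz
  | mul y z _ _ hy hz => rw [map_mul]; exact Subalgebra.mul_mem _ hy hz

/-- a point of the image ring lifts to the localised Hecke ring -/
theorem exists_lift_point {P : Type} [AddCommGroup P] [Module O P] [Module.Finite O P]
    [Module.Free O P] {A'' : Type} [CommRing A'']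
    (θb : A'' →+* IsLocalRing.ResidueField O) (ρ : A'' →+* Module.End O P)
    (hloc : LocHyp O θb ρ) {Ω : Type*} [CommRing Ω] [Algebra O Ω] [Nontrivial Ω]
    (θ'' : TQ O θb ρ →ₐ[O] Ω) :
    ∃ θ₂ : Tloc O θb →ₐ[O] Ω, (∀ t, θ₂ (piT O θb t) = θ'' (chi O θb ρ t)) ∧
      ∀ x, θ₂ x ∈ θ''.range := by
  haveI : Nontrivial P := by
    by_contra hP
    rw [not_nontrivial_iff_subsingleton] at hP
    have h01 : (1 : TQ O θb ρ) = 0 := by
      apply act_injective O θb ρ
      exact Subsingleton.elim _ _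
    have h := congrArg θ'' h01
    rw [map_one, map_zero] at h
    exact one_ne_zero h
  haveI : Fact (LocHyp O θb ρ) := ⟨hloc⟩
  refine ⟨θ''.comp (lift O θb (chi O θb ρ) (fun t => residue_chi t)), fun t => ?_, fun x => ?_⟩
  · rw [AlgHom.comp_apply, lift_piT]
  · rw [AlgHom.comp_apply]
    exact ⟨_, rfl⟩

include hres_act hcores_act hres_E hcores_E in
/-- **level lowering of a point at a trivial Taylor–Wiles diamond, into the localised Hecke ring
of the lower level**. -/
theorem exists_point_lower_tw (γ : Fin s → O) (i : Fin k) (q : ℕ)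
    (hrc : ∀ x : L, res (cores x) = ∑ j ∈ Finset.range q, (E (Fin.natAdd s i) ^ j) x)
    (htf : ∀ m : FamCoinv (frD B) γ,
      (q : O) • m ∈ LinearMap.range (quotDM B γ i - 1) → m ∈ LinearMap.range (quotDM B γ i - 1))
    [Module.Finite O (Plow (𝔪 := 𝔪) actL'')] [Module.Free O (Plow (𝔪 := 𝔪) actL'')]
    {A'' : Type} [CommRing A''] (ρ : A'' →+* Module.End O (Plow (𝔪 := 𝔪) actL''))
    (hρE : ∀ t v, ρ t * Elow (𝔪 := 𝔪) actL'' E'' hE''act v
      = Elow (𝔪 := 𝔪) actL'' E'' hE''act v * ρ t)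
    (θb : A'' →+* IsLocalRing.ResidueField O) (hloc : LocHyp O θb ρ)
    {ι : Type*} (g : ι → A'') (hg : Subring.closure (Set.range g) = ⊤)
    {T : Type*} [CommRing T] [Algebra O T]
    (a : T →ₐ[O] Module.End O (FamCoinv (frD B) γ))
    (haD : ∀ t, a t * quotDM B γ i = quotDM B γ i * a t)
    (τ : ι → T)
    (f : ι → Module.End O L) (f'' : ι → Module.End O L'')
    (hint : ∀ j y, res (f'' j y) = f j (res y))
    (hρf : ∀ j (y : Plow (𝔪 := 𝔪) actL''),
      ((ρ (g j) y : Plow (𝔪 := 𝔪) actL'') : L'') = f'' j (y : L''))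
    (ha : ∀ j (x x' : B.M), R.ι x' = f j (R.ι x) →
      a (τ j) (fmk (frD B) γ x) = fmk (frD B) γ x')
    {Ω : Type*} [CommRing Ω] [Algebra O Ω] [Nontrivial Ω] (θ : T →ₐ[O] Ω)
    (hθ : ∀ r : T, (∀ m, a r m ∈ LinearMap.range (quotDM B γ i - 1)) → θ r = 0) :
    ∃ θ₂ : Tloc O θb →ₐ[O] Ω, (∀ j, θ₂ (piT O θb (g j)) = θ (τ j)) ∧ ∀ x, θ₂ x ∈ θ.range := by
  haveI : Nontrivial (Plow (𝔪 := 𝔪) actL'') :=
    nontrivial_lower R actL'' res cores hres_act hcores_act γ i q hrc htf a θ hθ
  haveI : Fact (LocHyp O θb ρ) := ⟨hloc⟩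
  have hf''loc : ∀ j y, IsLoc actL'' 𝔪 y → IsLoc actL'' 𝔪 (f'' j y) := by
    intro j y hy
    have h := hρf j ⟨y, hy⟩
    rw [← h]
    exact (ρ (g j) ⟨y, hy⟩).2
  obtain ⟨θ'', hθ''⟩ := exists_point_lower R actL'' E'' hE''act res cores hres_act hcores_act
    hres_E hcores_E γ i q hrc htf a haD
    (actOf O θb ρ (indRing (Elow (𝔪 := 𝔪) actL'' E'' hE''act) γ ρ hρE)
      (ker_twO_le (Elow (𝔪 := 𝔪) actL'' E'' hE''act) γ ρ hρE))
    τ (fun j => chi O θb ρ (g j)) (adjoin_chi_range θb ρ g hg) f f'' hf''loc hint ha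
    (by
      intro j y y' hy
      rw [actOf_chi, indRing_fmk]
      congr 1
      exact Subtype.ext (by rw [hρf, hy]))
    θ hθ
  refine ⟨θ''.comp (lift O θb (chi O θb ρ) (fun t => residue_chi t)), fun j => ?_, fun x => ?_⟩
  · rw [AlgHom.comp_apply, lift_piT, hθ'']
  · rw [AlgHom.comp_apply]
    exact range_le_of_gen θ'' θ (fun j => chi O θb ρ (g j)) τ (adjoin_chi_range θb ρ g hg) hθ'' _

end GB.P5.LowerPoint

end Fermat.Agent.GE8.P3B
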