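/-
GATE-B / GB-P5-1PT-STEP2 (helper49): **the twisted Hecke ring of the `𝔪`-primary part of
`Hom(Γ_H, O)`, for a GENERIC `θ`** (used at the level `π_i ∘ Θ` where the `i`-th Taylor–Wiles
character has been dropped; equally valid at `Θ` itself).

Inputs: (BND) `hbnd` at `θ`, a twist ring homomorphism `tw` of the Hecke algebra of forms of a level
`N'` on the parabolic classes of `Γ_H` with `tw (T_l) = ⟨dℓ l⟩ ∘ T_l` (`TwInst.exists_tw_of_pr`), a
residual evaluation `ev : 𝕋 → k` of the Hecke symbols with kernel `𝔪`, the diamonds of `p`-power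
order.

* `diaLoc` : the diamonds on the primary part; `twLoc_comm_diaLoc`;
* `isNilMod_twLoc` : `twLoc (T_l) - c` is nilpotent modulo `𝔪_O` for `c ≡ ev (X_l)`;
* `exists_residual` : the residual character `θ̄ : heckeAlgebra N' 2 S →+* k` of `twLoc`, with
  `θ̄ (T_l) = ev (X_l)` and `ImageRing.LocHyp O θ̄ twLoc`.
-/
import Mathlib
import Fermat.Agent.GE8.P3B.GB.B7.UqOne
import Fermat.Agent.GB.P5.NilInputs
import Fermat.Agent.GB.P5.IndRing
import Fermat.Agent.GE8.P3B.StepGen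
import Fermat.Agent.GE8.P3B.Ok3W

/- TWIN (helper6 B4 generator; conventions of helper24 / helper86) of `Fermat.Agent.GB.P5.TwPrimary` with `p ≠ 3` relaxed to `Ok3A Sy 𝔪 p` / `Ok3W p W` (RISK-5 fix (B), step B4); everything below lives in the wrapper namespace `Fermat.Agent.GE8.P3B`. -/
set_option linter.dupNamespace false
open Fermat Fermat.Agent Fermat.Agent.GB Fermat.Agent.GB.B3 Fermat.Agent.GB.B3.CycInst Fermat.Agent.GB.B3.EisGamma0 Fermat.Agent.GB.B3.GamH Fermat.Agent.GB.B3.HeckeAct Fermat.Agent.GB.B3.HeckeActH Fermat.Agent.GB.B3.RealLevel Fermat.Agent.GB.B4 Fermat.Agent.GB.B4.Datum Fermat.Agent.GB.B4.Datum.ImageRing Fermat.Agent.GB.B4.Twist Fermat.Agent.GB.B4.Twist.Asm Fermat.Agent.GB.B4.Twist.TwFinal Fermat.Agent.GB.B7 Fermat.Agent.GB.B7.TwU Fermat.Agent.GB.P5 Fermat.Agent.GB.P5.EigChar Fermat.Agent.GB.P5.NilInputs Fermat.Agent.GJ Fermat.Agent.GJ.J2 Fermat.Agent.GJ.J2.Lat Fermat.Agent.GJ.J2.ZStruct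 Fermat.Agent.GM Fermat.Agent.GM.B Fermat.Agent.GM.EisClass Fermat.Agent.S16_helper49

namespace Fermat.Agent.GE8.P3B

set_option autoImplicit false
set_option linter.unusedSectionVars false
set_option linter.style.haveILetI false

noncomputable section

open scoped MatrixGroups
open CongruenceSubgroup Matrix Matrix.SpecialLinearGroup ModularCurve.Period CuspForm
open S16_helper49 GM.B GM.EisClass
open GB.B3 GB.B3.EisGamma0 GB.B3.GamH
open GB.B3.RealLevel GB.B3.HeckeActH GB.B3.HeckeAct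
open GB.B3.CycInst GB.B3.StepInst
open GJ.J2.ZStruct GJ.J2.Lat
open GB.B4.Twist.Asm GB.B4.Twist.TwFinal
open GB.B7.TwU GB.B7.UqOne
open GB.B4.Datum.ImageRing GB.P5.EigChar GB.P5.NilInputs

namespace GB.P5.TwPrimary

variable {N : ℕ} [NeZero N] (Sy : Symbols N) {Δ : Type} [CommGroup Δ] (θ : (ZMod N)ˣ →* Δ)
  {O : Type} [CommRing O] [IsDomain O] [IsPrincipalIdealRing O] [IsLocalRing O]
  [IsAdicComplete (IsLocalRing.maximalIdeal O) O]
  (𝔪 : Ideal (Sy.𝕋 O)) [𝔪.IsMaximal]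

/-! ### the diamonds on the primary part -/

theorem diaLin_comm_actH (d : Gamma0 N) (s : Sy.𝕋 O) :
    diaLin O θ d * actH Sy O θ s = actH Sy O θ s * diaLin O θ d := by
  refine LinearMap.ext fun ψ => ?_
  rw [Module.End.mul_apply, Module.End.mul_apply, diaLin_apply, diaLin_apply]
  exact diaH_act Sy O θ d s ψ

theorem isLoc_diaLin (d : Gamma0 N) {y : Additive (GammaH θ) →+ O}
    (hy : IsLoc (actH Sy O θ) 𝔪 y) : IsLoc (actH Sy O θ) 𝔪 (diaLin O θ d y) := by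
  intro s hs
  obtain ⟨z, rfl⟩ := hy s hs
  refine ⟨diaLin O θ d z, ?_⟩
  have h := congrArg (fun g : Module.End O (Additive (GammaH θ) →+ O) => g z)
    (diaLin_comm_actH Sy θ d s)
  simp only [Module.End.mul_apply] at h
  exact h.symm

/-- the diamond `⟨d⟩` on the primary part -/
def diaLoc (d : Gamma0 N) : Module.End O ↥(Base.locSub (actH Sy O θ) 𝔪) :=
  (diaLin O θ d).restrict fun _ hy => isLoc_diaLin Sy θ 𝔪 d hy

theorem coe_diaLoc (d : Gamma0 N) (y : ↥(Base.locSub (actH Sy O θ) 𝔪)) :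
    ((diaLoc Sy θ 𝔪 d y : ↥(Base.locSub (actH Sy O θ) 𝔪)) : Additive (GammaH θ) →+ O)
      = diaH θ O d (y : Additive (GammaH θ) →+ O) := rfl

theorem diaLoc_comm_act (d : Gamma0 N) (s : Sy.𝕋 O) :
    Commute (diaLoc Sy θ 𝔪 d) (Base.locSubAct (actH Sy O θ) 𝔪 s) := by
  refine LinearMap.ext fun y => Subtype.ext ?_
  rw [Module.End.mul_apply, Module.End.mul_apply, coe_diaLoc, Base.coe_locSubAct,
    Base.coe_locSubAct, coe_diaLoc]
  exact diaH_act Sy O θ d s _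

theorem diaLoc_pow (d : Gamma0 N) (n : ℕ) (hd : chi θ (d ^ n) = 1) :
    diaLoc Sy θ 𝔪 d ^ n = 1 := by
  have h := diaLin_pow O θ d n hd
  refine LinearMap.ext fun y => Subtype.ext ?_
  have key : ∀ (m : ℕ) (y : ↥(Base.locSub (actH Sy O θ) 𝔪)),
      (((diaLoc Sy θ 𝔪 d ^ m) y : ↥(Base.locSub (actH Sy O θ) 𝔪)) :
        Additive (GammaH θ) →+ O) = (diaLin O θ d ^ m) (y : Additive (GammaH θ) →+ O) := by
    intro m
    induction m with
    | zero => intro y; rfl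
    | succ m ih =>
      intro y
      rw [pow_succ, Module.End.mul_apply, ih, pow_succ, Module.End.mul_apply]
      rfl
  rw [key, h]
  rfl

/-! ### the twisted action commutes with the diamonds -/

section Tw

variable (hbnd : ∀ y : Additive (GammaH θ) →+ O, IsLoc (actH Sy O θ) 𝔪 y →
    y ∈ parabolicHoms O (GammaH θ) O)
  {N' : ℕ} [NeZero N'] (S : Set ℕ) (dℓ : PrimesOff S → Gamma0 N)
  (tw : ↥(heckeAlgebra N' 2 S) →+* Module.End O ↥(parabolicHoms O (GammaH θ) O))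
  (htw : ∀ (l : PrimesOff S) (v : ↥(parabolicHoms O (GammaH θ) O)),
    ((tw (formsGenS N' S l) v : ↥(parabolicHoms O (GammaH θ) O)) : Additive (GammaH θ) →+ O)
      = diaH θ O (dℓ l) (genH θ O l.1 (v : Additive (GammaH θ) →+ O)))

theorem twLoc_comm_diaLoc (t : ↥(heckeAlgebra N' 2 S)) (d : Gamma0 N) :
    twLoc Sy θ 𝔪 hbnd S dℓ tw htw t * diaLoc Sy θ 𝔪 d
      = diaLoc Sy θ 𝔪 d * twLoc Sy θ 𝔪 hbnd S dℓ tw htw t := by
  refine LinearMap.ext fun y => Subtype.ext ?_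
  rw [Module.End.mul_apply, Module.End.mul_apply, coe_twLoc, coe_diaLoc, coe_twLoc]
  have h := (commute_diaV_twU θ S dℓ tw htw d t).eq
  have h2 := congrArg (fun g : Module.End O ↥(parabolicHoms O (GammaH θ) O) =>
    ((g (upL Sy θ 𝔪 hbnd y) : ↥(parabolicHoms O (GammaH θ) O)) : Additive (GammaH θ) →+ O)) h
  simp only [Module.End.mul_apply, coe_diaV] at h2
  rw [h2]
  congr 2

/-- the generator `T_l` (`l ∤ N`) of the twisted action, on the primary part -/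
theorem coe_twLoc_gen (l : PrimesOff S) (hlN : ¬ (l.1 : ℕ) ∣ N)
    (y : ↥(Base.locSub (actH Sy O θ) 𝔪)) :
    ((twLoc Sy θ 𝔪 hbnd S dℓ tw htw (formsGenS N' S l) y : ↥(Base.locSub (actH Sy O θ) 𝔪)) :
        Additive (GammaH θ) →+ O)
      = diaH θ O (dℓ l) (haveI : Fact (l.1 : ℕ).Prime := ⟨l.1.2⟩
          TH θ O hlN (y : Additive (GammaH θ) →+ O)) := by
  rw [coe_twLoc, htw, genH_of_not_dvd θ O l.1 hlN]
  rfl

end Tw

/-! ### the residual character of the twisted action -/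

section Residual

open IsLocalRing

theorem TH_congr {ℓ ℓ' : ℕ} [Fact ℓ.Prime] [Fact ℓ'.Prime] (h : ℓ = ℓ') (hℓN : ¬ ℓ ∣ N)
    (hℓ'N : ¬ ℓ' ∣ N) (φ : Additive (GammaH θ) →+ O) : TH θ O hℓN φ = TH θ O hℓ'N φ := by
  subst h
  rfl

instance finite_locSub : Module.Finite O ↥(Base.locSub (actH Sy O θ) 𝔪) := by
  haveI hfi : (GammaH θ).FiniteIndex := finiteIndex_GammaH θ
  haveI : Module.Finite O (Additive (GammaH θ) →+ O) := HomFree.homFinite_SL2Z (GammaH θ) O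
  infer_instance

instance free_locSub : Module.Free O ↥(Base.locSub (actH Sy O θ) 𝔪) := by
  haveI hfi : (GammaH θ).FiniteIndex := finiteIndex_GammaH θ
  haveI : Module.Finite O (Additive (GammaH θ) →+ O) := HomFree.homFinite_SL2Z (GammaH θ) O
  haveI : Module.Free O (Additive (GammaH θ) →+ O) := HomFree.homFree_SL2Z (GammaH θ) O
  obtain ⟨d, ⟨b⟩⟩ := Base.exists_basis_locSub (actH Sy O θ) 𝔪
  exact Module.Free.of_basis b

variable (ev : Sy.𝕋 O →+* ResidueField O)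
  (hevC : ∀ x : O, ev (algebraMap O (Sy.𝕋 O) x) = residue O x)
  (hker : ∀ s : Sy.𝕋 O, s ∈ 𝔪 ↔ ev s = 0)

include hker in
/-- the symbols outside `𝔪` are onto on the primary part -/
theorem locSubAct_surjective {s : Sy.𝕋 O} (hs : ev s ≠ 0) :
    Function.Surjective (Base.locSubAct (actH Sy O θ) 𝔪 s) := by
  haveI hfi : (GammaH θ).FiniteIndex := finiteIndex_GammaH θ
  haveI : Module.Finite O (Additive (GammaH θ) →+ O) := HomFree.homFinite_SL2Z (GammaH θ) O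
  intro y
  have hs' : s ∉ 𝔪 := fun h => hs ((hker s).mp h)
  obtain ⟨y', hy', hsy⟩ := exists_isLoc_preimage (actH Sy O θ) 𝔪 y.2 hs'
  exact ⟨⟨y', hy'⟩, Subtype.ext hsy⟩

variable (hbnd : ∀ y : Additive (GammaH θ) →+ O, IsLoc (actH Sy O θ) 𝔪 y →
    y ∈ parabolicHoms O (GammaH θ) O)
  {N' : ℕ} [NeZero N'] (S : Set ℕ) (dℓ : PrimesOff S → Gamma0 N)
  (tw : ↥(heckeAlgebra N' 2 S) →+* Module.End O ↥(parabolicHoms O (GammaH θ) O))
  (htw : ∀ (l : PrimesOff S) (v : ↥(parabolicHoms O (GammaH θ) O)),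
    ((tw (formsGenS N' S l) v : ↥(parabolicHoms O (GammaH θ) O)) : Additive (GammaH θ) →+ O)
      = diaH θ O (dℓ l) (genH θ O l.1 (v : Additive (GammaH θ) →+ O)))

/-- the generator `T_l` of the twisted action is `⟨dℓ l⟩ ∘ X_l` on the primary part -/
theorem twLoc_gen_eq (l : PrimesOff S) (i : Sy.ι₁) (hi : Sy.ℓ i = (l.1 : ℕ)) :
    twLoc Sy θ 𝔪 hbnd S dℓ tw htw (formsGenS N' S l)
      = diaLoc Sy θ 𝔪 (dℓ l) * Base.locSubAct (actH Sy O θ) 𝔪 (MvPolynomial.X (Sum.inl i)) := by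
  haveI : Fact (l.1 : ℕ).Prime := ⟨l.1.2⟩
  haveI := Sy.factℓ i
  have hlN : ¬ (l.1 : ℕ) ∣ N := hi ▸ Sy.hℓN i
  refine LinearMap.ext fun y => Subtype.ext ?_
  rw [coe_twLoc_gen Sy θ 𝔪 hbnd S dℓ tw htw l hlN, Module.End.mul_apply, coe_diaLoc,
    Base.coe_locSubAct, actH_X_inl]
  congr 1
  exact TH_congr θ hi.symm hlN (Sy.hℓN i) _

include hevC hker in
/-- **`twLoc (T_l) - c` is nilpotent modulo `𝔪_O`** for `c ≡ ev (X_l)` -/
theorem isNilMod_twLoc {p : ℕ} (hp : p.Prime) (hp2 : p ≠ 2) (hpO : (p : O) ∈ maximalIdeal O)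
    (n : ℕ) (hpow : ∀ d : Gamma0 N, chi θ (d ^ p ^ n) = 1)
    (l : PrimesOff S) (i : Sy.ι₁) (hi : Sy.ℓ i = (l.1 : ℕ)) (c : O)
    (hc : ev (MvPolynomial.X (Sum.inl i)) = residue O c) :
    IsNilModSub (M := ↥(Base.locSub (actH Sy O θ) 𝔪))
      (twLoc Sy θ 𝔪 hbnd S dℓ tw htw (formsGenS N' S l)) c := by
  have h1 := @isNilMod_twist O _ _ ↥(Base.locSub (actH Sy O θ) 𝔪) _ _ (Sy.𝕋 O) _ _
    (finite_locSub Sy θ 𝔪) (Base.locSubAct (actH Sy O θ) 𝔪) ev hevC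
    (fun s hs => locSubAct_surjective Sy θ 𝔪 ev hker hs) p hp hp2 hpO (diaLoc Sy θ 𝔪 (dℓ l)) n
    (diaLoc_pow Sy θ 𝔪 (dℓ l) (p ^ n) (hpow _)) (fun s => diaLoc_comm_act Sy θ 𝔪 (dℓ l) s)
    (MvPolynomial.X (Sum.inl i)) c hc
  have e := twLoc_gen_eq Sy θ 𝔪 hbnd S dℓ tw htw l i hi
  rw [e]
  exact h1

include hevC hker in
/-- **the residual character of the twisted Hecke action on the primary part** -/
theorem exists_residual [Nontrivial ↥(Base.locSub (actH Sy O θ) 𝔪)]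
    {p : ℕ} (hp : p.Prime) (hp2 : p ≠ 2) (hpO : (p : O) ∈ maximalIdeal O)
    (n : ℕ) (hpow : ∀ d : Gamma0 N, chi θ (d ^ p ^ n) = 1)
    (idx : PrimesOff S → Sy.ι₁) (hidx : ∀ l, Sy.ℓ (idx l) = (l.1 : ℕ)) :
    ∃ θb : ↥(heckeAlgebra N' 2 S) →+* ResidueField O,
      (∀ l : PrimesOff S, θb (formsGenS N' S l) = ev (MvPolynomial.X (Sum.inl (idx l)))) ∧
      LocHyp (M := ↥(Base.locSub (actH Sy O θ) 𝔪)) O θb (twLoc Sy θ 𝔪 hbnd S dℓ tw htw) := by
  classical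
  -- lifts of the residual eigenvalues
  choose c0 hc0 using fun l : PrimesOff S =>
    residue_surjective (ev (MvPolynomial.X (Sum.inl (idx l))))
  -- a function on the Hecke algebra taking the value `c0 l'` at the generator of `l`
  let c : ↥(heckeAlgebra N' 2 S) → O := fun t =>
    if h : ∃ l : PrimesOff S, formsGenS N' S l = t then c0 h.choose else 0
  have hG : Algebra.adjoin ℤ (Set.range (formsGenS N' S)) = ⊤ := by
    rw [Algebra.adjoin_int, GB.B4.Twist.TwHom.closure_range_formsGenS]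
    rfl
  have hc : ∀ l : PrimesOff S, ∃ l' : PrimesOff S,
      formsGenS N' S l' = formsGenS N' S l ∧ c (formsGenS N' S l) = c0 l' := fun l =>
    have hex : ∃ l' : PrimesOff S, formsGenS N' S l' = formsGenS N' S l := ⟨l, rfl⟩
    ⟨hex.choose, hex.choose_spec, dif_pos hex⟩
  have hnil0 : ∀ l : PrimesOff S, IsNilModSub (M := ↥(Base.locSub (actH Sy O θ) 𝔪))
      (twLoc Sy θ 𝔪 hbnd S dℓ tw htw (formsGenS N' S l)) (c0 l) := fun l =>
    isNilMod_twLoc Sy θ 𝔪 ev hevC hker hbnd S dℓ tw htw hp hp2 hpO n hpow l (idx l) (hidx l)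
      (c0 l) (hc0 l).symm
  have hnil : ∀ g ∈ Set.range (formsGenS N' S),
      IsNilModSub (M := ↥(Base.locSub (actH Sy O θ) 𝔪))
        (twLoc Sy θ 𝔪 hbnd S dℓ tw htw g) (c g) := by
    rintro _ ⟨l, rfl⟩
    obtain ⟨l', hl', hcl⟩ := hc l
    rw [hcl, ← hl']
    exact hnil0 l'
  obtain ⟨θb, hθb, hloc⟩ := @exists_residual_char O _ _ ↥(heckeAlgebra N' 2 S) _
    ↥(Base.locSub (actH Sy O θ) 𝔪) (Submodule.addCommGroup _) (Submodule.module _)
    (finite_locSub Sy θ 𝔪) ‹_›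
    (twLoc Sy θ 𝔪 hbnd S dℓ tw htw) (Set.range (formsGenS N' S)) hG c hnil
  refine ⟨θb, fun l => ?_, hloc⟩
  -- the value at a generator does not depend on the lift
  obtain ⟨l', hl', hcl⟩ := hc l
  rw [hθb _ ⟨l, rfl⟩, hcl, ← hc0 l]
  have h1 := hnil0 l'
  rw [hl'] at h1
  exact @residue_eq_of_isNilModSub O _ _ ↥(Base.locSub (actH Sy O θ) 𝔪) _ _
    (finite_locSub Sy θ 𝔪) ‹_› _ _ _ h1 (hnil0 l)

end Residual

end GB.P5.TwPrimary
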