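/-
GATE-B / GB-P5-1PT-STEP2 (helper49): **a point of the top Hecke ring occurring in
`M_Q / (D_i - 1) M_Q` gives a point of the localised Hecke ring `Carrier.Tloc O θ̄''` of the level
where the `i`-th Taylor–Wiles character has been dropped**, generic form at the `GammaH` levels.

`θ : (ZMod N)ˣ →* Δ` the big character, `π : Δ →* Δ''` a quotient whose kernel is generated by
`χ_θ(dd (s + i))` (the `i`-th Taylor–Wiles diamond), `θ'' = π ∘ θ`.  The big level `B` is realised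
in `Hom(Γ_H, O)_𝔪` with diamonds `⟨dd j⟩`.  At the lower level `Γ_{H''}`: (BND) `hbnd`, a twist ring
homomorphism `tw` of the Hecke algebra of forms of a level `N''` with `tw (T_l) = ⟨dℓ l⟩ T_l`.

Top level: ANY commutative `O`-algebra `T` acting on `FamCoinv (frD B) γ` (`= M¹_Q`, `M^χ_Q`), commuting
with the `i`-th diamond, with elements `τ l` acting as `⟨dℓ l⟩ T_l` on representatives (`ha`).

Output (`exists_lower_point`): the residual character `θ̄''` of the lower twisted Hecke action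
(`θ̄'' (T_l) = ev (X_l)`) and an `O`-algebra homomorphism `θ₂ : Tloc O θ̄'' → Ω` with
`θ₂ (T_l) = θpt (τ l)` and image inside the image of `θpt`.
-/
import Mathlib
import Fermat.Agent.GE8.P3B.GB.P5.TwPrimary
import Fermat.Agent.GE8.P3B.GB.P5.LowerHom
import Fermat.Agent.GE8.P3B.GB.P5.LowerPoint3
import Fermat.Agent.GE8.P3B.StepGen
import Fermat.Agent.GE8.P3B.Ok3W

/- TWIN (helper6 B4 generator; conventions of helper24 / helper86) of `Fermat.Agent.GB.P5.LowerTw` with `p ≠ 3` relaxed to `Ok3A Sy 𝔪 p` / `Ok3W p W` (RISK-5 fix (B), step B4); everything below lives in the wrapper namespace `Fermat.Agent.GE8.P3B`. -/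
set_option linter.dupNamespace false
open Fermat Fermat.Agent Fermat.Agent.GB Fermat.Agent.GB.B3 Fermat.Agent.GB.B3.ChiLevelMulti Fermat.Agent.GB.B3.CycInst Fermat.Agent.GB.B3.EisGamma0 Fermat.Agent.GB.B3.GamH Fermat.Agent.GB.B3.HeckeAct Fermat.Agent.GB.B3.HeckeActH Fermat.Agent.GB.B3.RealLevel Fermat.Agent.GB.B3.TWLevel Fermat.Agent.GB.B4 Fermat.Agent.GB.B4.Datum Fermat.Agent.GB.B4.Datum.Carrier Fermat.Agent.GB.B4.Datum.ImageRing Fermat.Agent.GB.B4.Twist Fermat.Agent.GB.B4.Twist.Asm Fermat.Agent.GB.B4.Twist.TwFinal Fermat.Agent.GB.B7 Fermat.Agent.GB.B7.TwU Fermat.Agent.GB.P5 Fermat.Agent.GB.P5.EigChar Fermat.Agent.GB.P5.IndRing Fermat.Agent.GB.P5.NilInputs Fermat.Agent.GJ Fermat.Agent.GJ.J2 Fermat.Agent.GJ.J2.Lat Fermat.Agent.GJ.J2.ZStruct Fermat.Agent.GM Fermat.Agent.GM.B Fermat.Agent.GM.EisClass Fermat.Agent.S16_helper49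

namespace Fermat.Agent.GE8.P3B

set_option autoImplicit false
set_option linter.unusedSectionVars false
set_option linter.style.haveILetI false

noncomputable section

open scoped MatrixGroups
open CongruenceSubgroup Matrix Matrix.SpecialLinearGroup ModularCurve.Period CuspForm
open S16_helper49 GM.B GM.EisClass
open GB.B3 GB.B3.EisGamma0 GB.B3.GamH
open GB.B3.RealLevel GB.B3.HeckeActH GB.B3.HeckeAct
open GB.B3.CycInst GB.B3.StepInst GB.B3.TWLevel
open GB.B3.ChiLevelMulti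
open GJ.J2.ZStruct GJ.J2.Lat
open GB.B4.Twist.Asm GB.B4.Twist.TwFinal
open GB.B7.TwU GB.B7.UqOne
open GB.B4.Datum.ImageRing GB.B4.Datum.Carrier
open GB.P5.EigChar GB.P5.NilInputs GB.P5.TwPrimary
open GB.P5.LowerHom GB.P5.LowerLevel GB.P5.LowerPoint
open GB.P5.IndRing

namespace GB.P5.LowerTw

variable {N : ℕ} [NeZero N] (Sy : Symbols N) {Δ : Type} [CommGroup Δ] (θ : (ZMod N)ˣ →* Δ)
  {O : Type} [CommRing O] [IsDomain O] [IsPrincipalIdealRing O] [IsLocalRing O]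
  [IsAdicComplete (IsLocalRing.maximalIdeal O) O]
  (𝔪 : Ideal (Sy.𝕋 O)) [𝔪.IsMaximal]

/-! ### the twisted action commutes with the framed diamonds of the primary part -/

section Coinv

variable {s k : ℕ} (dd : Fin (s + k) → Gamma0 N)

theorem dia_act (i : Fin (s + k)) (t : Sy.𝕋 O) :
    diaLin O θ (dd i) * actH Sy O θ t = actH Sy O θ t * diaLin O θ (dd i) :=
  diaLin_comm_actH Sy θ (dd i) t

variable (hbnd : ∀ y : Additive (GammaH θ) →+ O, IsLoc (actH Sy O θ) 𝔪 y →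
    y ∈ parabolicHoms O (GammaH θ) O)
  {N' : ℕ} [NeZero N'] (S : Set ℕ) (dℓ : PrimesOff S → Gamma0 N)
  (tw : ↥(heckeAlgebra N' 2 S) →+* Module.End O ↥(parabolicHoms O (GammaH θ) O))
  (htw : ∀ (l : PrimesOff S) (v : ↥(parabolicHoms O (GammaH θ) O)),
    ((tw (formsGenS N' S l) v : ↥(parabolicHoms O (GammaH θ) O)) : Additive (GammaH θ) →+ O)
      = diaH θ O (dℓ l) (genH θ O l.1 (v : Additive (GammaH θ) →+ O)))

/-- the twisted action commutes with the framed diamonds of the primary part -/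
theorem twLoc_comm_Elow (t : ↥(heckeAlgebra N' 2 S)) (v : Fin s) :
    twLoc Sy θ 𝔪 hbnd S dℓ tw htw t
        * Elow (𝔪 := 𝔪) (actH Sy O θ) (fun i => diaLin O θ (dd i)) (dia_act Sy θ dd) v
      = Elow (𝔪 := 𝔪) (actH Sy O θ) (fun i => diaLin O θ (dd i)) (dia_act Sy θ dd) v
        * twLoc Sy θ 𝔪 hbnd S dℓ tw htw t :=
  twLoc_comm_diaLoc Sy θ 𝔪 hbnd S dℓ tw htw t (dd (Fin.castAdd k v))

/-- the generator `T_l` of the twisted action on the primary part, as an operator of the ambient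
module -/
theorem coe_twLoc_formsGenS (l : PrimesOff S) (i : Sy.ι₁) (hi : Sy.ℓ i = (l.1 : ℕ))
    (y : ↥(Base.locSub (actH Sy O θ) 𝔪)) :
    ((twLoc Sy θ 𝔪 hbnd S dℓ tw htw (formsGenS N' S l) y : ↥(Base.locSub (actH Sy O θ) 𝔪)) :
        Additive (GammaH θ) →+ O)
      = (diaLin O θ (dℓ l) * actH Sy O θ (MvPolynomial.X (Sum.inl i)))
          (y : Additive (GammaH θ) →+ O) := by
  rw [twLoc_gen_eq Sy θ 𝔪 hbnd S dℓ tw htw l i hi]
  rfl

end Coinv

/-! ### the main statement -/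

section Main

variable {Δ'' : Type} [CommGroup Δ''] (π : Δ →* Δ'')
  {M0 : Type} [AddCommGroup M0] [Module O M0] {act0 : Sy.𝕋 O →ₐ[O] Module.End O M0}
  {s k : ℕ} {Nk : Fin (s + k) → ℕ} {B : FreeLevel O (Sy.𝕋 O) M0 act0 (s + k) Nk}
  (dd : Fin (s + k) → Gamma0 N)
  (R : Realizes B (actH Sy O θ) 𝔪 (fun i => diaLin O θ (dd i)))
  [Fintype π.ker] (rep : π.ker → Gamma0 N) (hrep : ∀ δ : π.ker, chi θ (rep δ) = (δ : Δ))
  -- the lower level: (BND) and the twist ring homomorphism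
  (hbnd : ∀ y : Additive (GammaH (π.comp θ)) →+ O, IsLoc (actH Sy O (π.comp θ)) 𝔪 y →
    y ∈ parabolicHoms O (GammaH (π.comp θ)) O)
  {N'' : ℕ} [NeZero N''] (S : Set ℕ) (dℓ : PrimesOff S → Gamma0 N)
  (tw : ↥(heckeAlgebra N'' 2 S) →+* Module.End O ↥(parabolicHoms O (GammaH (π.comp θ)) O))
  (htw : ∀ (l : PrimesOff S) (v : ↥(parabolicHoms O (GammaH (π.comp θ)) O)),
    ((tw (formsGenS N'' S l) v : ↥(parabolicHoms O (GammaH (π.comp θ)) O)) :
        Additive (GammaH (π.comp θ)) →+ O)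
      = diaH (π.comp θ) O (dℓ l) (genH (π.comp θ) O l.1
          (v : Additive (GammaH (π.comp θ)) →+ O)))
  -- the residual evaluation of the Hecke symbols
  (ev : Sy.𝕋 O →+* IsLocalRing.ResidueField O)
  (hevC : ∀ c : O, ev (MvPolynomial.C c) = IsLocalRing.residue O c)
  (hker : ∀ t : Sy.𝕋 O, t ∈ 𝔪 ↔ ev t = 0)

include hevC hker rep hrep hbnd tw htw in
/-- **(1pt), module half**: a point `θpt` of the top Hecke ring occurring in `M_Q / (D_i - 1) M_Q`
comes from a point `θ₂` of the localised Hecke ring of the lower level `GammaH (π ∘ θ)` (forms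
level `N''`), with the same eigenvalues: `θ₂ (T_l) = θpt (τ l)`. -/
theorem exists_lower_point {p : ℕ} (hp : p.Prime) (hp2 : p ≠ 2)
    (hpO : (p : O) ∈ IsLocalRing.maximalIdeal O)
    (n : ℕ) (hpow : ∀ d : Gamma0 N, chi (π.comp θ) (d ^ p ^ n) = 1)
    (idx : PrimesOff S → Sy.ι₁) (hidx : ∀ l, Sy.ℓ (idx l) = (l.1 : ℕ))
    (γ : Fin s → O) (i : Fin k) (q : ℕ)
    (hd0 : chi θ (dd (Fin.natAdd s i)) ∈ π.ker)
    (hord : orderOf (chi θ (dd (Fin.natAdd s i))) = q) (hcard : Fintype.card π.ker = q)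
    (htf : ∀ m : FamCoinv (frD B) γ,
      (q : O) • m ∈ LinearMap.range (quotDM B γ i - 1) → m ∈ LinearMap.range (quotDM B γ i - 1))
    {T : Type*} [CommRing T] [Algebra O T]
    (a : T →ₐ[O] Module.End O (FamCoinv (frD B) γ))
    (haD : ∀ t, a t * quotDM B γ i = quotDM B γ i * a t)
    (τ : PrimesOff S → T)
    (ha : ∀ (l : PrimesOff S) (x x' : B.M),
      R.ι x' = (diaLin O θ (dℓ l) * actH Sy O θ (MvPolynomial.X (Sum.inl (idx l)))) (R.ι x) →
      a (τ l) (fmk (frD B) γ x) = fmk (frD B) γ x')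
    {Ω : Type*} [CommRing Ω] [Algebra O Ω] [Nontrivial Ω] (θpt : T →ₐ[O] Ω)
    (hθ : ∀ r : T, (∀ m, a r m ∈ LinearMap.range (quotDM B γ i - 1)) → θpt r = 0) :
    ∃ θb : ↥(heckeAlgebra N'' 2 S) →+* IsLocalRing.ResidueField O,
      (∀ l : PrimesOff S, θb (formsGenS N'' S l) = ev (MvPolynomial.X (Sum.inl (idx l)))) ∧
      ∃ θ₂ : Tloc O θb →ₐ[O] Ω,
        (∀ l : PrimesOff S, θ₂ (piT O θb (formsGenS N'' S l)) = θpt (τ l)) ∧
        ∀ x, θ₂ x ∈ θpt.range := by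
  -- `res ∘ cores = ∑ D^j`
  have hrc : ∀ x : Additive (GammaH θ) →+ O,
      resLin O θ π (coresLin O θ π rep hrep x)
        = ∑ j ∈ Finset.range q, ((fun i => diaLin O θ (dd i)) (Fin.natAdd s i) ^ j) x :=
    fun x => resLin_coresLin_eq_sum_pow O θ π rep hrep q (dd (Fin.natAdd s i)) hd0 hord hcard x
  -- the lower primary part is nonzero
  haveI hnt : Nontrivial ↥(Base.locSub (actH Sy O (π.comp θ)) 𝔪) :=
    nontrivial_lower R (actH Sy O (π.comp θ)) (resLin O θ π) (coresLin O θ π rep hrep)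
      (fun t y => resLin_act O θ π Sy t y) (fun t x => coresLin_act O θ π rep hrep Sy t x)
      γ i q hrc htf a θpt hθ
  obtain ⟨θb, hθb, hloc⟩ := exists_residual Sy (π.comp θ) 𝔪 ev hevC hker hbnd S dℓ tw htw
    hp hp2 hpO n hpow idx hidx
  refine ⟨θb, hθb, ?_⟩
  exact @exists_point_lower_tw O _ _ (Sy.𝕋 O) _ _ M0 _ _ act0 s k Nk B
    (Additive (GammaH θ) →+ O) _ _ (actH Sy O θ) 𝔪 (fun i => diaLin O θ (dd i)) R
    (Additive (GammaH (π.comp θ)) →+ O) _ _ (actH Sy O (π.comp θ))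
    (fun i => diaLin O (π.comp θ) (dd i)) (dia_act Sy (π.comp θ) dd)
    (resLin O θ π) (coresLin O θ π rep hrep)
    (fun t y => resLin_act O θ π Sy t y) (fun t x => coresLin_act O θ π rep hrep Sy t x)
    (fun i y => resLin_dia O θ π (dd i) y) (fun i x => coresLin_dia O θ π rep hrep (dd i) x)
    γ i q hrc htf (finite_locSub Sy (π.comp θ) 𝔪) (free_locSub Sy (π.comp θ) 𝔪)
    ↥(heckeAlgebra N'' 2 S) _ (twLoc Sy (π.comp θ) 𝔪 hbnd S dℓ tw htw)
    (twLoc_comm_Elow Sy (π.comp θ) 𝔪 dd hbnd S dℓ tw htw) θb hloc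
    (PrimesOff S) (formsGenS N'' S)
    (GB.B4.Twist.TwHom.closure_range_formsGenS N'' S)
    T _ _ a haD τ
    (fun l => diaLin O θ (dℓ l) * actH Sy O θ (MvPolynomial.X (Sum.inl (idx l))))
    (fun l => diaLin O (π.comp θ) (dℓ l)
      * actH Sy O (π.comp θ) (MvPolynomial.X (Sum.inl (idx l))))
    (fun l y => by
      rw [Module.End.mul_apply, Module.End.mul_apply, resLin_dia, resLin_act])
    (fun l y => coe_twLoc_formsGenS Sy (π.comp θ) 𝔪 hbnd S dℓ tw htw l (idx l) (hidx l) y)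
    ha Ω _ _ ‹_› θpt hθ

end Main

end GB.P5.LowerTw
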