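/-
GATE-B / GB-P5-1PT-TOWERINST (helper67), file 3: **the pieces of `TowerInst.exists_point_lower_tower`
exported one by one** (for helper49's `LowerTw.exists_lower_point`, which takes `π rep hrep hrc htf`
as binders) **and the instance at helper44's `TwSkip.piSkip`**.

Standing data as in `GB/B3/Plug.lean`; `θ = Theta (Δs p e) H.psi (s + k)`; `i : Fin k` a
Taylor–Wiles diamond of `Plug.tw`; `π` with kernel the `Fin.rev (Fin.natAdd s i)`-th factor.

* `hd0_tower`, `hord_tower`, `hcard_tower` : the binders `hd0 hord hcard` of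
  `LowerHom.resLin_coresLin_eq_sum_pow` at `d0 := dfun (H.dd) (s + k) (Fin.natAdd s i)`,
  `q := Nfun p e (s + k) (Fin.natAdd s i)`;
* `exists_rep_tower` : `∃ rep hrep, ∀ x, res (cores x) = ∑_{t < q} (E (natAdd s i))^t x` (`hrc`);
* `htf_tower` : the binder `htf`;
* `hker_piSkip` : `hker` at `π := piSkip (Δs p e) i₀ (s + k) hi₀`, `i₀ = k - 1 - i`;
* `exists_point_lower_piSkip` : `exists_point_lower_tower` at `piSkip`.
-/
import Mathlib
import Fermat.Agent.GE8.P3B.GB.P5.TowerInst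
import Fermat.Agent.GE8.P3B.GB.P5.TwSkip
import Fermat.Agent.GE8.P3B.StepGen
import Fermat.Agent.GE8.P3B.Ok3W

/- TWIN (helper6 B4 generator; conventions of helper24 / helper86) of `Fermat.Agent.GB.P5.TowerInstSkip` with `p ≠ 3` relaxed to `Ok3A Sy 𝔪 p` / `Ok3W p W` (RISK-5 fix (B), step B4); everything below lives in the wrapper namespace `Fermat.Agent.GE8.P3B`. -/
set_option linter.dupNamespace false
open Fermat Fermat.Agent Fermat.Agent.GB Fermat.Agent.GB.B3 Fermat.Agent.GB.B3.Base Fermat.Agent.GB.B3.ChiLevelMulti Fermat.Agent.GB.B3.CycInst Fermat.Agent.GB.B3.EisGamma0 Fermat.Agent.GB.B3.HeckeActH Fermat.Agent.GB.B3.RealLevel Fermat.Agent.GB.B3.TWChars Fermat.Agent.GB.B3.TWLevel Fermat.Agent.GB.P5 Fermat.Agent.GM Fermat.Agent.GM.B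

namespace Fermat.Agent.GE8.P3B

set_option autoImplicit false
set_option linter.unusedSectionVars false
set_option linter.style.haveILetI false

open scoped MatrixGroups
open CongruenceSubgroup

namespace GB.P5.TowerInstSkip

open GM.B GB.B3 GB.B3.EisGamma0
  GB.B3.TWLevel GB.B3.RealLevel GB.B3.HeckeActH
  GB.B3.StepInst GB.B3.Tower GB.B3.Final
  GB.B3.TWChars GB.B3.ChiLevelMulti GB.B3.FinalTW
  GB.B3.Plug GB.B3.Base GB.B3.CycInst
  GB.P5.LowerLevel GB.P5.LowerHom GB.P5.TowerInst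
  GB.P5.TwSkip

variable {N p : ℕ} [NeZero N] [hpF : Fact p.Prime] {K : ℕ} {r e N' : ℕ → ℕ}
variable (Sy : Symbols N)
variable {O : Type} [CommRing O] [IsDomain O] [IsPrincipalIdealRing O] [IsLocalRing O]
  [IsAdicComplete (IsLocalRing.maximalIdeal O) O] [Module.IsTorsionFree ℤ O]
variable (𝔪 : Ideal (Sy.𝕋 O)) [𝔪.IsMaximal]
variable (H : PrimeData N p K r e N') {ϖ : O} {s0 : Sy.ι₁} (h : Hyp Sy 𝔪 p ϖ s0)
variable (s k : ℕ) {Δ'' : Type} [CommGroup Δ''] (π : (∀ i : Fin (s + k), Δs p e i) →* Δ'')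

/-! ### the pieces -/

section Parts

variable (i : Fin k)
  (hker : ∀ δ : (∀ i' : Fin (s + k), Δs p e i'),
    δ ∈ π.ker ↔ ∀ i', i' ≠ Fin.rev (Fin.natAdd s i) → δ i' = 1)

theorem dfun_natAdd : dfun (H.dd hpF.out) (s + k) (Fin.natAdd s i)
    = H.dd hpF.out ((Fin.rev (Fin.natAdd s i) : Fin (s + k)) : ℕ) := by
  rw [dfun_apply, val_rev_natAdd]

theorem Nfun_natAdd_rev : Nfun p e (s + k) (Fin.natAdd s i)
    = p ^ e ((Fin.rev (Fin.natAdd s i) : Fin (s + k)) : ℕ) := by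
  rw [Nfun_apply, val_rev_natAdd]

include hker in
/-- `hd0` -/
theorem hd0_tower : chi (Theta (Δs p e) H.psi (s + k))
    (dfun (H.dd hpF.out) (s + k) (Fin.natAdd s i)) ∈ π.ker := by
  rw [dfun_natAdd]
  exact chi_mem_ker (Δs p e) H.psi _ π hker (H.dd hpF.out) (H.psi_dd_of_ne hpF.out)

/-- `hord` -/
theorem hord_tower : orderOf (chi (Theta (Δs p e) H.psi (s + k))
    (dfun (H.dd hpF.out) (s + k) (Fin.natAdd s i))) = Nfun p e (s + k) (Fin.natAdd s i) := by
  rw [dfun_natAdd, Nfun_natAdd_rev,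
    orderOf_chi (Δs p e) H.psi _ (H.dd hpF.out) (H.psi_dd_of_ne hpF.out),
    H.orderOf_psi_dd hpF.out]

include H hker in
/-- `hcard` (any `Fintype` instance on the kernel) -/
theorem hcard_tower [Fintype π.ker] :
    Fintype.card π.ker = Nfun p e (s + k) (Fin.natAdd s i) := by
  rw [Nfun_natAdd_rev, Fintype.card_eq_nat_card, card_ker (Δs p e) _ π hker]
  exact H.card_target hpF.out _

include hker in
/-- **`hrc`** : a section `rep` of `χ_θ` over `ker π` with `res ∘ cores = ∑_{t < q} ⟨d_i⟩^t` -/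
theorem exists_rep_tower [Fintype π.ker] :
    ∃ (rep : π.ker → Gamma0 N)
      (hrep : ∀ δ : π.ker, chi (Theta (Δs p e) H.psi (s + k)) (rep δ)
        = (δ : ∀ i' : Fin (s + k), Δs p e i')),
      ∀ x : Additive (GamH.GammaH (Theta (Δs p e) H.psi (s + k))) →+ O,
        resLin O (Theta (Δs p e) H.psi (s + k)) π
            (coresLin O (Theta (Δs p e) H.psi (s + k)) π rep hrep x)
          = ∑ t ∈ Finset.range (Nfun p e (s + k) (Fin.natAdd s i)),
              (diaLin O (Theta (Δs p e) H.psi (s + k))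
                (dfun (H.dd hpF.out) (s + k) (Fin.natAdd s i)) ^ t) x := by
  have hd0 := hd0_tower H s k π i hker
  have hord := hord_tower H s k i
  have hcard := hcard_tower H s k π i hker
  have hb := pow_bijectiveKK (chi (Theta (Δs p e) H.psi (s + k))) π
    (Nfun p e (s + k) (Fin.natAdd s i)) (dfun (H.dd hpF.out) (s + k) (Fin.natAdd s i))
    hd0 hord hcard
  let rep : π.ker → Gamma0 N := fun δ =>
    dfun (H.dd hpF.out) (s + k) (Fin.natAdd s i) ^ ((hb.2 δ).choose : ℕ)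
  have hrep : ∀ δ : π.ker, chi (Theta (Δs p e) H.psi (s + k)) (rep δ)
      = (δ : ∀ i' : Fin (s + k), Δs p e i') := by
    intro δ
    have h1 := (hb.2 δ).choose_spec
    show chi (Theta (Δs p e) H.psi (s + k))
      (dfun (H.dd hpF.out) (s + k) (Fin.natAdd s i) ^ ((hb.2 δ).choose : ℕ)) = _
    rw [map_pow]
    exact congrArg Subtype.val h1
  exact ⟨rep, hrep, fun x => resLin_coresLin_eq_sum_pow O (Theta (Δs p e) H.psi (s + k)) π rep hrep
    (Nfun p e (s + k) (Fin.natAdd s i)) (dfun (H.dd hpF.out) (s + k) (Fin.natAdd s i))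
    hd0 hord hcard x⟩

/-- **`htf`** : `M / (D_i - 1) M` has no `q`-torsion, `M = FamCoinv (frD B) γ` at the big level -/
theorem htf_tower (γ : Fin s → O) (hγ : ∀ v, γ v ^ Nfun p e (s + k) (Fin.castAdd k v) = 1)
    (m : FamCoinv (frD (bigLevel Sy 𝔪 H h (s + k))) γ)
    (hm : ((Nfun p e (s + k) (Fin.natAdd s i) : ℕ) : O) • m
      ∈ LinearMap.range (quotDM (bigLevel Sy 𝔪 H h (s + k)) γ i - 1)) :
    m ∈ LinearMap.range (quotDM (bigLevel Sy 𝔪 H h (s + k)) γ i - 1) := by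
  have hq0 : ((Nfun p e (s + k) (Fin.natAdd s i) : ℕ) : O) ≠ 0 := by
    rw [Nfun_natAdd_rev, Nat.cast_pow]
    exact pow_ne_zero _ h.hp0
  exact TorsFree.htf_famCoinv (bigLevel Sy 𝔪 H h (s + k)) (Nfun_pos hpF.out e (s + k)) γ hγ
    i _ (fun o ho => (mul_eq_zero.1 ho).resolve_left hq0) m hm

end Parts

/-! ### the instance at `piSkip` -/

section Skip

variable (i : Fin k) (i₀ : ℕ) (hi₀ : i₀ < s + k) (hi₀i : i₀ = k - 1 - (i : ℕ))

include hi₀i in
/-- **`hker` at `piSkip`** : the kernel of `piSkip i₀`, `i₀ = k - 1 - i`, is the coordinate of the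
Taylor–Wiles diamond `i` -/
theorem hker_piSkip (δ : ∀ i' : Fin (s + k), Δs p e i') :
    δ ∈ (piSkip (Δs p e) i₀ (s + k) hi₀).ker
      ↔ ∀ i', i' ≠ Fin.rev (Fin.natAdd s i) → δ i' = 1 := by
  have hv : ((Fin.rev (Fin.natAdd s i) : Fin (s + k)) : ℕ) = i₀ := by
    rw [← val_rev_natAdd, Fin.val_natAdd, hi₀i]
    have := i.2
    omega
  rw [mem_ker_piSkip_iff]
  constructor
  · intro hδ i' hi'
    exact hδ i' fun h' => hi' (Fin.ext (h'.trans hv.symm))
  · intro hδ i' hi'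
    exact hδ i' fun h' => hi' ((congrArg Fin.val h').trans hv)

include hi₀i in
/-- **level lowering of a point at a trivial Taylor–Wiles diamond, at the big level of B3, lower level
= helper44's `piSkip`** (so the lower character is `Theta` of `primeData_skip H i₀`, `Theta_skip`). -/
theorem exists_point_lower_piSkip
    (γ : Fin s → O) (hγ : ∀ v, γ v ^ Nfun p e (s + k) (Fin.castAdd k v) = 1)
    {T T'' : Type*} [CommRing T] [Algebra O T] [CommRing T''] [Algebra O T'']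
    (a : T →ₐ[O] Module.End O (FamCoinv (frD (bigLevel Sy 𝔪 H h (s + k))) γ))
    (haD : ∀ t, a t * quotDM (bigLevel Sy 𝔪 H h (s + k)) γ i
      = quotDM (bigLevel Sy 𝔪 H h (s + k)) γ i * a t)
    (a'' : T'' →ₐ[O] Module.End O
      (Y (𝔪 := 𝔪) (actH Sy O ((piSkip (Δs p e) i₀ (s + k) hi₀).comp
          (Theta (Δs p e) H.psi (s + k))))
        (diaLow (O := O) H s k (piSkip (Δs p e) i₀ (s + k) hi₀))
        (diaLow_act Sy H s k (piSkip (Δs p e) i₀ (s + k) hi₀)) γ))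
    {ι : Type*} (τ : ι → T) (τ'' : ι → T'')
    (hgen'' : Algebra.adjoin O (Set.range τ'') = ⊤)
    (f : ι → Module.End O (Additive (GamH.GammaH (Theta (Δs p e) H.psi (s + k))) →+ O))
    (f'' : ι → Module.End O
      (Additive (GamH.GammaH ((piSkip (Δs p e) i₀ (s + k) hi₀).comp
        (Theta (Δs p e) H.psi (s + k)))) →+ O))
    (hf''loc : ∀ j y,
      IsLoc (actH Sy O ((piSkip (Δs p e) i₀ (s + k) hi₀).comp
        (Theta (Δs p e) H.psi (s + k)))) 𝔪 y →
      IsLoc (actH Sy O ((piSkip (Δs p e) i₀ (s + k) hi₀).comp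
        (Theta (Δs p e) H.psi (s + k)))) 𝔪 (f'' j y))
    (hint : ∀ j y, resLin O (Theta (Δs p e) H.psi (s + k))
        (piSkip (Δs p e) i₀ (s + k) hi₀) (f'' j y)
      = f j (resLin O (Theta (Δs p e) H.psi (s + k)) (piSkip (Δs p e) i₀ (s + k) hi₀) y))
    (ha : ∀ j (x x' : (bigLevel Sy 𝔪 H h (s + k)).M),
      (bigReal Sy 𝔪 H h (s + k)).ι x' = f j ((bigReal Sy 𝔪 H h (s + k)).ι x) →
      a (τ j) (fmk (frD (bigLevel Sy 𝔪 H h (s + k))) γ x)
        = fmk (frD (bigLevel Sy 𝔪 H h (s + k))) γ x')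
    (ha'' : ∀ j (y y' : Plow (𝔪 := 𝔪) (actH Sy O ((piSkip (Δs p e) i₀ (s + k) hi₀).comp
        (Theta (Δs p e) H.psi (s + k))))),
      (y' : Additive (GamH.GammaH ((piSkip (Δs p e) i₀ (s + k) hi₀).comp
          (Theta (Δs p e) H.psi (s + k)))) →+ O)
        = f'' j (y : Additive (GamH.GammaH ((piSkip (Δs p e) i₀ (s + k) hi₀).comp
          (Theta (Δs p e) H.psi (s + k)))) →+ O) →
      a'' (τ'' j) (fmk _ γ y) = fmk _ γ y')
    {Ω : Type*} [CommRing Ω] [Algebra O Ω] (θpt : T →ₐ[O] Ω)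
    (hθ : ∀ r : T, (∀ m, a r m ∈
      LinearMap.range (quotDM (bigLevel Sy 𝔪 H h (s + k)) γ i - 1)) → θpt r = 0) :
    ∃ θ'' : T'' →ₐ[O] Ω, ∀ j, θ'' (τ'' j) = θpt (τ j) :=
  exists_point_lower_tower Sy 𝔪 H h s k (piSkip (Δs p e) i₀ (s + k) hi₀) i
    (hker_piSkip s k i i₀ hi₀ hi₀i) γ hγ a haD a'' τ τ'' hgen'' f f'' hf''loc hint ha ha'' θpt hθ

end Skip

end GB.P5.TowerInstSkip

end Fermat.Agent.GE8.P3B
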