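/-
GATE-B / GB-P5-1PT-TOWERGLUE stage 1 (helper67): **helper49's `LowerTw.exists_lower_point` at THE big
level of B3** (`Plug.bigLevel` / `Plug.bigReal`), lower level `GammaH (π ∘ θ)` with `ker π` the
coordinate of the Taylor–Wiles diamond `i` (e.g. helper44's `piSkip`, `i₀ = k - 1 - i`).

Discharged here: `[Fintype π.ker] rep hrep hd0 hord hcard` (`TowerInstSkip`), `q := Nfun …`,
`htf` (`TorsFree`), `hpow` (`n := sup e`), `hp hp2 hpO` (from `Plug.Hyp`).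
Left as binders, VERBATIM from `exists_lower_point`: the lower-level (BND) `hbnd`, the twist `tw htw`
of the forms level `N''` (helper44 `TwSkip.exists_tw_skip`), the residual evaluation `ev hevC hker𝔪`,
the symbol index `idx hidx`, and the top Hecke ring `T a haD τ ha` with the point `θpt hθ` (`= Occ₁`).
-/
import Mathlib
import Fermat.Agent.GE8.P3B.GB.P5.LowerTw
import Fermat.Agent.GE8.P3B.GB.P5.TowerInstSkip
import Fermat.Agent.GE8.P3B.StepGen
import Fermat.Agent.GE8.P3B.Ok3W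

/- TWIN (helper6 B4 generator; conventions of helper24 / helper86) of `Fermat.Agent.GB.P5.LowerTwTower` with `p ≠ 3` relaxed to `Ok3A Sy 𝔪 p` / `Ok3W p W` (RISK-5 fix (B), step B4); everything below lives in the wrapper namespace `Fermat.Agent.GE8.P3B`. -/
set_option linter.dupNamespace false
open Fermat Fermat.Agent Fermat.Agent.GB Fermat.Agent.GB.B3 Fermat.Agent.GB.B3.ChiLevelMulti Fermat.Agent.GB.B3.CycInst Fermat.Agent.GB.B3.EisGamma0 Fermat.Agent.GB.B3.GamH Fermat.Agent.GB.B3.HeckeAct Fermat.Agent.GB.B3.HeckeActH Fermat.Agent.GB.B3.RealLevel Fermat.Agent.GB.B3.TWChars Fermat.Agent.GB.B3.TWLevel Fermat.Agent.GB.B4 Fermat.Agent.GB.B4.Datum Fermat.Agent.GB.B4.Datum.Carrier Fermat.Agent.GB.B4.Datum.ImageRing Fermat.Agent.GB.B4.Twist Fermat.Agent.GB.B4.Twist.Asm Fermat.Agent.GB.B4.Twist.TwFinal Fermat.Agent.GB.B7 Fermat.Agent.GB.B7.TwU Fermat.Agent.GB.P5 Fermat.Agent.GJ Fermat.Agent.GJ.J2 Fermat.Agent.GJ.J2.Lat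 Fermat.Agent.GJ.J2.ZStruct Fermat.Agent.GM Fermat.Agent.GM.B Fermat.Agent.GM.EisClass Fermat.Agent.S16_helper49

namespace Fermat.Agent.GE8.P3B

set_option autoImplicit false
set_option linter.unusedSectionVars false
set_option linter.style.haveILetI false

open scoped MatrixGroups
open CongruenceSubgroup Matrix Matrix.SpecialLinearGroup ModularCurve.Period CuspForm
open S16_helper49 GM.B GM.EisClass
open GB.B3 GB.B3.EisGamma0 GB.B3.GamH
open GB.B3.RealLevel GB.B3.HeckeActH GB.B3.HeckeAct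
open GB.B3.CycInst GB.B3.StepInst GB.B3.TWLevel
open GB.B3.ChiLevelMulti
open GB.B3.Tower GB.B3.Final GB.B3.TWChars
open GB.B3.FinalTW GB.B3.Plug
open GJ.J2.ZStruct GJ.J2.Lat
open GB.B4.Twist.Asm GB.B4.Twist.TwFinal
open GB.B7.TwU GB.B7.UqOne
open GB.B4.Datum.ImageRing GB.B4.Datum.Carrier
open GB.P5.LowerHom GB.P5.LowerLevel GB.P5.LowerTw
open GB.P5.TowerInst GB.P5.TowerInstSkip GB.P5.TwSkip

namespace GB.P5.LowerTwTower

variable {N p : ℕ} [NeZero N] [hpF : Fact p.Prime] {K : ℕ} {r e N' : ℕ → ℕ}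
variable (Sy : Symbols N)
variable {O : Type} [CommRing O] [IsDomain O] [IsPrincipalIdealRing O] [IsLocalRing O]
  [IsAdicComplete (IsLocalRing.maximalIdeal O) O] [Module.IsTorsionFree ℤ O]
variable (𝔪 : Ideal (Sy.𝕋 O)) [𝔪.IsMaximal]
variable (H : PrimeData N p K r e N') {ϖ : O} {s0 : Sy.ι₁} (h : Hyp Sy 𝔪 p ϖ s0)
variable (s k : ℕ) {Δ'' : Type} [CommGroup Δ''] (π : (∀ i : Fin (s + k), Δs p e i) →* Δ'')

/-- every element of `∏_{i' < j} ℤ/p^(e i')` is killed by `p ^ sup e` -/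
theorem pow_sup_eq_one (H : PrimeData N p K r e N') (j : ℕ) (δ : ∀ i' : Fin j, Δs p e i') :
    δ ^ p ^ (Finset.univ.sup fun i' : Fin j => e i') = 1 := by
  funext i'
  rw [Pi.pow_apply, Pi.one_apply]
  have hle : e i' ≤ Finset.univ.sup fun i' : Fin j => e i' :=
    Finset.le_sup (f := fun i' : Fin j => e i') (Finset.mem_univ i')
  obtain ⟨c, hc⟩ := pow_dvd_pow p hle
  have h1 : (δ i') ^ p ^ e i' = 1 := by
    have h2 := pow_card_eq_one' (G := Δs p e i') (x := δ i')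
    rwa [H.card_target hpF.out] at h2
  rw [hc, pow_mul, h1, one_pow]

/-- **`hpow`** at any quotient of the big character -/
theorem hpow_tower (j : ℕ) {Δ' : Type} [CommGroup Δ'] (π' : (∀ i' : Fin j, Δs p e i') →* Δ')
    (d : Gamma0 N) :
    chi (π'.comp (Theta (Δs p e) H.psi j))
      (d ^ p ^ (Finset.univ.sup fun i' : Fin j => e i')) = 1 := by
  rw [map_pow]
  show π' (chi (Theta (Δs p e) H.psi j) d) ^ _ = 1
  rw [← map_pow, pow_sup_eq_one H, map_one]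

/-- **(1pt), module half, at the big level of B3** (`π`-generic, `hker`). -/
theorem exists_lower_point_tower (i : Fin k)
    (hker : ∀ δ : (∀ i' : Fin (s + k), Δs p e i'),
      δ ∈ π.ker ↔ ∀ i', i' ≠ Fin.rev (Fin.natAdd s i) → δ i' = 1)
    (hbnd : ∀ y : Additive (GammaH (π.comp (Theta (Δs p e) H.psi (s + k)))) →+ O,
      IsLoc (actH Sy O (π.comp (Theta (Δs p e) H.psi (s + k)))) 𝔪 y →
      y ∈ parabolicHoms O (GammaH (π.comp (Theta (Δs p e) H.psi (s + k)))) O)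
    {N'' : ℕ} [NeZero N''] (S : Set ℕ) (dℓ : PrimesOff S → Gamma0 N)
    (tw : ↥(heckeAlgebra N'' 2 S) →+*
      Module.End O ↥(parabolicHoms O (GammaH (π.comp (Theta (Δs p e) H.psi (s + k)))) O))
    (htw : ∀ (l : PrimesOff S)
      (v : ↥(parabolicHoms O (GammaH (π.comp (Theta (Δs p e) H.psi (s + k)))) O)),
      ((tw (formsGenS N'' S l) v :
          ↥(parabolicHoms O (GammaH (π.comp (Theta (Δs p e) H.psi (s + k)))) O)) :
          Additive (GammaH (π.comp (Theta (Δs p e) H.psi (s + k)))) →+ O)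
        = diaH (π.comp (Theta (Δs p e) H.psi (s + k))) O (dℓ l)
            (genH (π.comp (Theta (Δs p e) H.psi (s + k))) O l.1
              (v : Additive (GammaH (π.comp (Theta (Δs p e) H.psi (s + k)))) →+ O)))
    (ev : Sy.𝕋 O →+* IsLocalRing.ResidueField O)
    (hevC : ∀ c : O, ev (MvPolynomial.C c) = IsLocalRing.residue O c)
    (hker𝔪 : ∀ t : Sy.𝕋 O, t ∈ 𝔪 ↔ ev t = 0)
    (idx : PrimesOff S → Sy.ι₁) (hidx : ∀ l, Sy.ℓ (idx l) = (l.1 : ℕ))
    (γ : Fin s → O) (hγ : ∀ v, γ v ^ Nfun p e (s + k) (Fin.castAdd k v) = 1)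
    {T : Type*} [CommRing T] [Algebra O T]
    (a : T →ₐ[O] Module.End O (FamCoinv (frD (bigLevel Sy 𝔪 H h (s + k))) γ))
    (haD : ∀ t, a t * quotDM (bigLevel Sy 𝔪 H h (s + k)) γ i
      = quotDM (bigLevel Sy 𝔪 H h (s + k)) γ i * a t)
    (τ : PrimesOff S → T)
    (ha : ∀ (l : PrimesOff S) (x x' : (bigLevel Sy 𝔪 H h (s + k)).M),
      (bigReal Sy 𝔪 H h (s + k)).ι x'
        = (diaLin O (Theta (Δs p e) H.psi (s + k)) (dℓ l)
            * actH Sy O (Theta (Δs p e) H.psi (s + k)) (MvPolynomial.X (Sum.inl (idx l))))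
          ((bigReal Sy 𝔪 H h (s + k)).ι x) →
      a (τ l) (fmk (frD (bigLevel Sy 𝔪 H h (s + k))) γ x)
        = fmk (frD (bigLevel Sy 𝔪 H h (s + k))) γ x')
    {Ω : Type*} [CommRing Ω] [Algebra O Ω] [Nontrivial Ω] (θpt : T →ₐ[O] Ω)
    (hθ : ∀ r : T, (∀ m, a r m ∈
      LinearMap.range (quotDM (bigLevel Sy 𝔪 H h (s + k)) γ i - 1)) → θpt r = 0) :
    ∃ θb : ↥(heckeAlgebra N'' 2 S) →+* IsLocalRing.ResidueField O,
      (∀ l : PrimesOff S, θb (formsGenS N'' S l) = ev (MvPolynomial.X (Sum.inl (idx l)))) ∧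
      ∃ θ₂ : Tloc O θb →ₐ[O] Ω,
        (∀ l : PrimesOff S, θ₂ (piT O θb (formsGenS N'' S l)) = θpt (τ l)) ∧
        ∀ x, θ₂ x ∈ θpt.range := by
  classical
  haveI : Fintype π.ker := Fintype.ofFinite _
  obtain ⟨rep, hrep, -⟩ := exists_rep_tower (O := O) H s k π i hker
  have hpO : (p : O) ∈ IsLocalRing.maximalIdeal O := by
    rw [h.hmax]
    exact h.hpϖ
  exact exists_lower_point Sy (Theta (Δs p e) H.psi (s + k)) 𝔪 π
    (dfun (H.dd hpF.out) (s + k)) (bigReal Sy 𝔪 H h (s + k)) rep hrep hbnd S dℓ tw htw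
    ev hevC hker𝔪 hpF.out h.hp2 hpO _ (hpow_tower H (s + k) π) idx hidx γ i
    (Nfun p e (s + k) (Fin.natAdd s i)) (hd0_tower H s k π i hker) (hord_tower H s k i)
    (hcard_tower H s k π i hker) (htf_tower Sy 𝔪 H h s k i γ hγ) a haD τ ha θpt hθ

/-- **(1pt), module half, at the big level of B3, lower level = `piSkip`** (`i₀ = k - 1 - i`). -/
theorem exists_lower_point_piSkip (i : Fin k) (i₀ : ℕ) (hi₀ : i₀ < s + k)
    (hi₀i : i₀ = k - 1 - (i : ℕ))
    (hbnd : ∀ y : Additive (GammaH ((piSkip (Δs p e) i₀ (s + k) hi₀).comp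
        (Theta (Δs p e) H.psi (s + k)))) →+ O,
      IsLoc (actH Sy O ((piSkip (Δs p e) i₀ (s + k) hi₀).comp
        (Theta (Δs p e) H.psi (s + k)))) 𝔪 y →
      y ∈ parabolicHoms O (GammaH ((piSkip (Δs p e) i₀ (s + k) hi₀).comp
        (Theta (Δs p e) H.psi (s + k)))) O)
    {N'' : ℕ} [NeZero N''] (S : Set ℕ) (dℓ : PrimesOff S → Gamma0 N)
    (tw : ↥(heckeAlgebra N'' 2 S) →+*
      Module.End O ↥(parabolicHoms O (GammaH ((piSkip (Δs p e) i₀ (s + k) hi₀).comp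
        (Theta (Δs p e) H.psi (s + k)))) O))
    (htw : ∀ (l : PrimesOff S)
      (v : ↥(parabolicHoms O (GammaH ((piSkip (Δs p e) i₀ (s + k) hi₀).comp
        (Theta (Δs p e) H.psi (s + k)))) O)),
      ((tw (formsGenS N'' S l) v :
          ↥(parabolicHoms O (GammaH ((piSkip (Δs p e) i₀ (s + k) hi₀).comp
            (Theta (Δs p e) H.psi (s + k)))) O)) :
          Additive (GammaH ((piSkip (Δs p e) i₀ (s + k) hi₀).comp
            (Theta (Δs p e) H.psi (s + k)))) →+ O)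
        = diaH ((piSkip (Δs p e) i₀ (s + k) hi₀).comp (Theta (Δs p e) H.psi (s + k))) O (dℓ l)
            (genH ((piSkip (Δs p e) i₀ (s + k) hi₀).comp (Theta (Δs p e) H.psi (s + k))) O l.1
              (v : Additive (GammaH ((piSkip (Δs p e) i₀ (s + k) hi₀).comp
                (Theta (Δs p e) H.psi (s + k)))) →+ O)))
    (ev : Sy.𝕋 O →+* IsLocalRing.ResidueField O)
    (hevC : ∀ c : O, ev (MvPolynomial.C c) = IsLocalRing.residue O c)
    (hker𝔪 : ∀ t : Sy.𝕋 O, t ∈ 𝔪 ↔ ev t = 0)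
    (idx : PrimesOff S → Sy.ι₁) (hidx : ∀ l, Sy.ℓ (idx l) = (l.1 : ℕ))
    (γ : Fin s → O) (hγ : ∀ v, γ v ^ Nfun p e (s + k) (Fin.castAdd k v) = 1)
    {T : Type*} [CommRing T] [Algebra O T]
    (a : T →ₐ[O] Module.End O (FamCoinv (frD (bigLevel Sy 𝔪 H h (s + k))) γ))
    (haD : ∀ t, a t * quotDM (bigLevel Sy 𝔪 H h (s + k)) γ i
      = quotDM (bigLevel Sy 𝔪 H h (s + k)) γ i * a t)
    (τ : PrimesOff S → T)
    (ha : ∀ (l : PrimesOff S) (x x' : (bigLevel Sy 𝔪 H h (s + k)).M),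
      (bigReal Sy 𝔪 H h (s + k)).ι x'
        = (diaLin O (Theta (Δs p e) H.psi (s + k)) (dℓ l)
            * actH Sy O (Theta (Δs p e) H.psi (s + k)) (MvPolynomial.X (Sum.inl (idx l))))
          ((bigReal Sy 𝔪 H h (s + k)).ι x) →
      a (τ l) (fmk (frD (bigLevel Sy 𝔪 H h (s + k))) γ x)
        = fmk (frD (bigLevel Sy 𝔪 H h (s + k))) γ x')
    {Ω : Type*} [CommRing Ω] [Algebra O Ω] [Nontrivial Ω] (θpt : T →ₐ[O] Ω)
    (hθ : ∀ r : T, (∀ m, a r m ∈
      LinearMap.range (quotDM (bigLevel Sy 𝔪 H h (s + k)) γ i - 1)) → θpt r = 0) :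
    ∃ θb : ↥(heckeAlgebra N'' 2 S) →+* IsLocalRing.ResidueField O,
      (∀ l : PrimesOff S, θb (formsGenS N'' S l) = ev (MvPolynomial.X (Sum.inl (idx l)))) ∧
      ∃ θ₂ : Tloc O θb →ₐ[O] Ω,
        (∀ l : PrimesOff S, θ₂ (piT O θb (formsGenS N'' S l)) = θpt (τ l)) ∧
        ∀ x, θ₂ x ∈ θpt.range :=
  exists_lower_point_tower Sy 𝔪 H h s k (piSkip (Δs p e) i₀ (s + k) hi₀) i
    (hker_piSkip s k i i₀ hi₀ hi₀i) hbnd S dℓ tw htw ev hevC hker𝔪 idx hidx γ hγ a haD τ ha θpt hθ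

end GB.P5.LowerTwTower

end Fermat.Agent.GE8.P3B
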