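/-
GATE-B / GB-P5-1PT-TOWERGLUE stage 2 (helper49): **helper67's `LowerTwTower.exists_lower_point_piSkip`
with the lower-level analytic binders discharged** — (BND) at `piSkip ∘ Theta` (squarefree level,
`LowerInputs.hbnd_skip`) and the twist ring homomorphism of the lower level with the SAME diamond
representatives `dℓ` as the top level (helper44 `TwSkip.exists_tw_skip`, `genH` form
`LowerInputs.exists_tw_skip_genH`).

Left as binders: the forms level `N''` with its equation `hN''`, the set `S ⊇ primes of N''`,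
`dℓ` with the TOP-level `hdℓ`, the residual evaluation `ev hevC hker𝔪`, the symbol index `idx hidx`,
and the top Hecke ring `T a haD τ ha` with the point `θpt hθ` (`= Occ₁`).
-/
import Mathlib
import Fermat.Agent.GE8.P3B.GB.P5.LowerTwTower
import Fermat.Agent.GE8.P3B.GB.P5.LowerInputs
import Fermat.Agent.GE8.P3B.StepGen
import Fermat.Agent.GE8.P3B.Ok3W

/- TWIN (helper6 B4 generator; conventions of helper24 / helper86) of `Fermat.Agent.GB.P5.LowerTwSkip` with `p ≠ 3` relaxed to `Ok3A Sy 𝔪 p` / `Ok3W p W` (RISK-5 fix (B), step B4); everything below lives in the wrapper namespace `Fermat.Agent.GE8.P3B`. -/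
set_option linter.dupNamespace false
open Fermat Fermat.Agent Fermat.Agent.GB Fermat.Agent.GB.B3 Fermat.Agent.GB.B3.ChiLevelMulti Fermat.Agent.GB.B3.CycInst Fermat.Agent.GB.B3.EisGamma0 Fermat.Agent.GB.B3.GamH Fermat.Agent.GB.B3.HeckeAct Fermat.Agent.GB.B3.HeckeActH Fermat.Agent.GB.B3.RealLevel Fermat.Agent.GB.B3.TWChars Fermat.Agent.GB.B3.TWLevel Fermat.Agent.GB.B4 Fermat.Agent.GB.B4.Datum Fermat.Agent.GB.B4.Datum.Carrier Fermat.Agent.GB.B4.Datum.ImageRing Fermat.Agent.GB.B4.Twist Fermat.Agent.GB.B4.Twist.Asm Fermat.Agent.GB.B4.Twist.TwFinal Fermat.Agent.GB.B7 Fermat.Agent.GB.B7.TwU Fermat.Agent.GB.P5 Fermat.Agent.GJ Fermat.Agent.GJ.J2 Fermat.Agent.GJ.J2.Lat Fermat.Agent.GJ.J2.ZStruct Fermat.Agent.GM Fermat.Agent.GM.B Fermat.Agent.GM.EisClass Fermat.Agent.S16_helper49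

namespace Fermat.Agent.GE8.P3B

set_option autoImplicit false
set_option linter.unusedSectionVars false
set_option linter.style.haveILetI false

open scoped MatrixGroups
open CongruenceSubgroup Matrix Matrix.SpecialLinearGroup ModularCurve.Period CuspForm
open S16_helper49 GM.B GM.EisClass
open GB.B3 GB.B3.EisGamma0 GB.B3.GamH
open GB.B3.RealLevel GB.B3.HeckeActH GB.B3.HeckeAct
open GB.B3.CycInst GB.B3.StepInst GB.B3.TWLevel
open GB.B3.ChiLevelMulti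
open GB.B3.Tower GB.B3.Final GB.B3.TWChars
open GB.B3.FinalTW GB.B3.Plug
open GJ.J2.ZStruct GJ.J2.Lat
open GB.B4.Twist.Asm GB.B4.Twist.TwFinal
open GB.B7.TwU GB.B7.UqOne
open GB.B4.Datum.ImageRing GB.B4.Datum.Carrier
open GB.P5.LowerTwTower GB.P5.LowerInputs GB.P5.TwSkip

namespace GB.P5.LowerTwSkip

variable {N p : ℕ} [NeZero N] [hpF : Fact p.Prime] {K : ℕ} {r e N' : ℕ → ℕ}
variable (Sy : Symbols N)
variable {O : Type} [CommRing O] [IsDomain O] [IsPrincipalIdealRing O] [IsLocalRing O]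
  [IsAdicComplete (IsLocalRing.maximalIdeal O) O] [Module.IsTorsionFree ℤ O] [CharZero O]
variable (𝔪 : Ideal (Sy.𝕋 O)) [𝔪.IsMaximal]
variable (H : PrimeData N p K r e N') {ϖ : O} {s0 : Sy.ι₁} (h : Hyp Sy 𝔪 p ϖ s0)
variable (s k : ℕ)

/-- **(1pt), module half, at the big level of B3, everything lower-level discharged**: a point
`θpt` of the top Hecke ring `T` occurring in `M_Q / (D_i - 1) M_Q` (`M_Q = FamCoinv (frD B) γ`,
`B = Plug.bigLevel … (s + k)`) comes from a point `θ₂` of the localised Hecke ring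
`Carrier.Tloc O θb` of forms of level `N'' = N * ∏_{i' ≠ i₀} r i'` (`i₀ = k - 1 - i`, so
`r i₀ ∥ N''` : `LowerInputs.dvd_skip`, `not_sq_dvd_skip`), with the same eigenvalues. -/
theorem exists_lower_point_skip (hN : Squarefree N) (hsk : s + k ≤ K)
    (i : Fin k) (i₀ : ℕ) (hi₀ : i₀ < s + k) (hi₀i : i₀ = k - 1 - (i : ℕ))
    {N'' : ℕ} [NeZero N''] (hN'' : N'' = N * ∏ i' : Fin (s + k - 1), r (skip i₀ i'))
    (S : Set ℕ) (hS : ∀ q : ℕ, q.Prime → q ∣ N'' → q ∈ S)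
    (dℓ : PrimesOff S → Gamma0 N)
    (hdℓ : ∀ (l : PrimesOff S) (u : (ZMod N)ˣ), (u : ZMod N) = ((l.1 : ℕ) : ZMod N) →
      chi (Theta (Δs p e) H.psi (s + k)) (dℓ l) ^ 2 * Theta (Δs p e) H.psi (s + k) u = 1)
    (ev : Sy.𝕋 O →+* IsLocalRing.ResidueField O)
    (hevC : ∀ c : O, ev (MvPolynomial.C c) = IsLocalRing.residue O c)
    (hker𝔪 : ∀ t : Sy.𝕋 O, t ∈ 𝔪 ↔ ev t = 0)
    (idx : PrimesOff S → Sy.ι₁) (hidx : ∀ l, Sy.ℓ (idx l) = (l.1 : ℕ))
    (γ : Fin s → O) (hγ : ∀ v, γ v ^ Nfun p e (s + k) (Fin.castAdd k v) = 1)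
    {T : Type*} [CommRing T] [Algebra O T]
    (a : T →ₐ[O] Module.End O (FamCoinv (frD (bigLevel Sy 𝔪 H h (s + k))) γ))
    (haD : ∀ t, a t * quotDM (bigLevel Sy 𝔪 H h (s + k)) γ i
      = quotDM (bigLevel Sy 𝔪 H h (s + k)) γ i * a t)
    (τ : PrimesOff S → T)
    (ha : ∀ (l : PrimesOff S) (x x' : (bigLevel Sy 𝔪 H h (s + k)).M),
      (bigReal Sy 𝔪 H h (s + k)).ι x'
        = (diaLin O (Theta (Δs p e) H.psi (s + k)) (dℓ l)
            * actH Sy O (Theta (Δs p e) H.psi (s + k)) (MvPolynomial.X (Sum.inl (idx l))))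
          ((bigReal Sy 𝔪 H h (s + k)).ι x) →
      a (τ l) (fmk (frD (bigLevel Sy 𝔪 H h (s + k))) γ x)
        = fmk (frD (bigLevel Sy 𝔪 H h (s + k))) γ x')
    {Ω : Type*} [CommRing Ω] [Algebra O Ω] [Nontrivial Ω] (θpt : T →ₐ[O] Ω)
    (hθ : ∀ r : T, (∀ m, a r m ∈
      LinearMap.range (quotDM (bigLevel Sy 𝔪 H h (s + k)) γ i - 1)) → θpt r = 0) :
    ∃ θb : ↥(heckeAlgebra N'' 2 S) →+* IsLocalRing.ResidueField O,
      (∀ l : PrimesOff S, θb (formsGenS N'' S l) = ev (MvPolynomial.X (Sum.inl (idx l)))) ∧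
      ∃ θ₂ : Tloc O θb →ₐ[O] Ω,
        (∀ l : PrimesOff S, θ₂ (piT O θb (formsGenS N'' S l)) = θpt (τ l)) ∧
        ∀ x, θ₂ x ∈ θpt.range := by
  obtain ⟨tw, htw⟩ := exists_tw_skip_genH (O := O) H hpF.out h.hp2 (s + k) hsk i₀ hi₀ hN'' S hS
    dℓ hdℓ
  exact exists_lower_point_piSkip Sy 𝔪 H h s k i i₀ hi₀ hi₀i
    (fun y hy => hbnd_skip H Sy 𝔪 h hN hpF.out i₀ (s + k) hi₀ y hy)
    S dℓ tw htw ev hevC hker𝔪 idx hidx γ hγ a haD τ ha θpt hθ

end GB.P5.LowerTwSkip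

end Fermat.Agent.GE8.P3B
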