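/-
GATE-B / GB-P5-1PT-STAGE2 (helper66): **(1pt) at the big level of B3** — stage 2 of the tower glue
+ the Galois END.

`LowerTwTower.exists_lower_point_piSkip` (helper67; module half, helper49 `LowerTw`) with the
analytic binders discharged by `LowerInputs` (helper49: `hbnd_skip`, `exists_tw_skip_genH`;
helper44 `TwSkip`), composed with `OnePtEnd.chi_point_eq_one_of_Tloc_point_gen`:

a point `θpt` of the top Hecke ring `T` occurring in `M_Q / (D_i - 1) M_Q` (`M_Q = FamCoinv … γ`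
over `Plug.bigLevel`) sends to `1` every diagonal character of `ρ|D_P` at every inertia element at
`P ∣ r i₀`, `i₀ = k - 1 - i` — the `h1` binder of `ProviderFlat/G4TW1Rev.exists_x_tw1F_rev`
(one of the two modules `L1.M`, `Lχ.M`: `γ := 1`, resp. `γ := c`).

OPEN BINDERS = G2 (`T a haD twT ha`: `twT (T_l)` acts as `⟨dℓ l⟩ T_l` on representatives),
G3 (`ρ hchar`), the residual representation (`ρbar habs hfrob` against the symbol evaluation `ev`)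
and the top-level twist data (`S dℓ hdℓ`, as in `TwInst.exists_tw_primeData`).
-/
import Fermat.Agent.GE8.P3B.GB.P5.LowerTwTower
import Fermat.Agent.GE8.P3B.GB.P5.LowerInputs
import Fermat.Agent.GB.P5.OnePtEnd
import Fermat.Agent.GE8.P3B.GB.P5.SkipLevel
import Fermat.Agent.GE8.P3B.StepGen
import Fermat.Agent.GE8.P3B.Ok3W

/- TWIN (helper6 B4 generator; conventions of helper24 / helper86) of `Fermat.Agent.GB.P5.OnePtTower` with `p ≠ 3` relaxed to `Ok3A Sy 𝔪 p` / `Ok3W p W` (RISK-5 fix (B), step B4); everything below lives in the wrapper namespace `Fermat.Agent.GE8.P3B`. -/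
set_option linter.dupNamespace false
open Fermat Fermat.Agent Fermat.Agent.Common_helper32 Fermat.Agent.GB Fermat.Agent.GB.B3 Fermat.Agent.GB.B3.ChiLevelMulti Fermat.Agent.GB.B3.CycInst Fermat.Agent.GB.B3.EisGamma0 Fermat.Agent.GB.B3.GamH Fermat.Agent.GB.B3.HeckeAct Fermat.Agent.GB.B3.HeckeActH Fermat.Agent.GB.B3.RealLevel Fermat.Agent.GB.B3.TWChars Fermat.Agent.GB.B3.TWLevel Fermat.Agent.GB.B4 Fermat.Agent.GB.B4.Datum Fermat.Agent.GB.B4.Datum.Carrier Fermat.Agent.GB.P5 Fermat.Agent.GJ Fermat.Agent.GJ.J2 Fermat.Agent.GJ.J2.Lat Fermat.Agent.GJ.J2.ZStruct Fermat.Agent.GM Fermat.Agent.GM.B Fermat.Agent.GM.EisClass Fermat.Agent.S16_helper49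

namespace Fermat.Agent.GE8.P3B

set_option autoImplicit false
set_option linter.unusedSectionVars false
set_option linter.style.haveILetI false

open scoped MatrixGroups
open CongruenceSubgroup Matrix Matrix.SpecialLinearGroup ModularCurve.Period CuspForm Polynomial
open S16_helper49 GM.B GM.EisClass
open GB.B3 GB.B3.EisGamma0 GB.B3.GamH
open GB.B3.RealLevel GB.B3.HeckeActH GB.B3.HeckeAct
open GB.B3.CycInst GB.B3.StepInst GB.B3.TWLevel
open GB.B3.ChiLevelMulti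
open GB.B3.Tower GB.B3.Final GB.B3.TWChars
open GB.B3.FinalTW GB.B3.Plug
open GJ.J2.ZStruct GJ.J2.Lat
open GB.B4.Datum.Carrier
open GB.P5.TwSkip
open Common_helper32

namespace GB.P5.OnePtTower

variable {N p : ℕ} [NeZero N] [hpF : Fact p.Prime] {K : ℕ} {r e N' : ℕ → ℕ}
variable (Sy : Symbols N)
variable {O : Type} [CommRing O] [IsDomain O] [IsDiscreteValuationRing O]
  [IsAdicComplete (IsLocalRing.maximalIdeal O) O] [Module.IsTorsionFree ℤ O]
  [Finite (IsLocalRing.ResidueField O)] [CharZero O]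
variable (𝔪 : Ideal (Sy.𝕋 O)) [𝔪.IsMaximal]
variable (H : PrimeData N p K r e N') {ϖ : O} {s0 : Sy.ι₁} (h : Hyp Sy 𝔪 p ϖ s0)
variable (s k : ℕ)

/-- **(1pt) at the big level of B3.** -/
theorem chi_point_eq_one_tower (hNsq : Squarefree N) (hjK : s + k ≤ K)
    (i : Fin k) (i₀ : ℕ) (hi₀ : i₀ < s + k) (hi₀i : i₀ = k - 1 - (i : ℕ)) (hrp : r i₀ ≠ p)
    -- the forms levels: `N''` (lower, `r i₀ ∥ N''`), `Nt` (top)
    {N'' : ℕ} [NeZero N''] (hN'' : N'' = N * ∏ i' : Fin (s + k - 1), r (skip i₀ i'))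
    {Nt : ℕ} [NeZero Nt]
    (S : Finset ℕ) (hpS : p ∈ S) (hS'' : ∀ q : ℕ, q.Prime → q ∣ N'' → q ∈ S)
    (hSt : ∀ q : ℕ, q.Prime → q ∣ Nt → q ∈ S)
    -- the top-level twist data
    (dℓ : PrimesOff (↑S : Set ℕ) → Gamma0 N)
    (hdℓ : ∀ (l : PrimesOff (↑S : Set ℕ)) (u : (ZMod N)ˣ),
      (u : ZMod N) = ((l.1 : ℕ) : ZMod N) →
      chi (Theta (Δs p e) H.psi (s + k)) (dℓ l) ^ 2 * Theta (Δs p e) H.psi (s + k) u = 1)
    -- the residual evaluation of the Hecke symbols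
    (ev : Sy.𝕋 O →+* IsLocalRing.ResidueField O)
    (hevC : ∀ c : O, ev (MvPolynomial.C c) = IsLocalRing.residue O c)
    (hker𝔪 : ∀ t : Sy.𝕋 O, t ∈ 𝔪 ↔ ev t = 0)
    (idx : PrimesOff (↑S : Set ℕ) → Sy.ι₁) (hidx : ∀ l, Sy.ℓ (idx l) = (l.1 : ℕ))
    (γ : Fin s → O) (hγ : ∀ v, γ v ^ Nfun p e (s + k) (Fin.castAdd k v) = 1)
    -- G2 : the top Hecke ring
    {T : Type} [CommRing T] [IsLocalRing T] [IsNoetherianRing T] [Algebra O T]
    [Algebra.IsIntegral O T]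
    (a : T →ₐ[O] Module.End O (FamCoinv (frD (bigLevel Sy 𝔪 H h (s + k))) γ))
    (haD : ∀ t, a t * quotDM (bigLevel Sy 𝔪 H h (s + k)) γ i
      = quotDM (bigLevel Sy 𝔪 H h (s + k)) γ i * a t)
    (twT : CuspForm.heckeAlgebra Nt 2 (↑S : Set ℕ) →+* T)
    (ha : ∀ (l : PrimesOff (↑S : Set ℕ)) (x x' : (bigLevel Sy 𝔪 H h (s + k)).M),
      (bigReal Sy 𝔪 H h (s + k)).ι x'
        = (diaLin O (Theta (Δs p e) H.psi (s + k)) (dℓ l)
            * actH Sy O (Theta (Δs p e) H.psi (s + k)) (MvPolynomial.X (Sum.inl (idx l))))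
          ((bigReal Sy 𝔪 H h (s + k)).ι x) →
      a (twT (formsGenS Nt (↑S : Set ℕ) l)) (fmk (frD (bigLevel Sy 𝔪 H h (s + k))) γ x)
        = fmk (frD (bigLevel Sy 𝔪 H h (s + k))) γ x')
    -- G3 : the Galois representation over `T`
    (ρ : GaloisRepAdic T)
    (hchar : ∀ (ℓ : ℕ) (hℓ : ℓ.Prime) (hℓN : ¬ ℓ ∣ Nt) (hℓS : ℓ ∉ (↑S : Set ℕ))
      (A : ValuationSubring Qb), A.LiesOverPrime ℓ → ∀ σ : GQ, A.IsFrobeniusAt σ ℓ →
        LinearMap.charpoly (ρ.ρ σ) =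
          X ^ 2 - C (twT (heckeAlgebra.T hℓ hℓN hℓS)) * X + C ((ℓ : T)))
    -- the residual representation against the symbol evaluation
    (ρbar : ResidualGaloisRep (IsLocalRing.ResidueField O)) (habs : ρbar.IsAbsolutelyIrreducible)
    (hfrob : ∀ l : PrimesOff (↑S : Set ℕ),
      ∀ P : ValuationSubring Qb, P.LiesOverPrime (l.1 : ℕ) → ∀ σ : GQ,
        P.IsFrobeniusAt σ (l.1 : ℕ) →
        ∃ d₀ : IsLocalRing.ResidueField O, LinearMap.charpoly (ρbar.ρ σ)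
          = X ^ 2 - C (ev (MvPolynomial.X (Sum.inl (idx l)))) * X + C d₀)
    -- the point
    {Ω : Type} [CommRing Ω] [IsReduced Ω] [Nontrivial Ω] [Algebra O Ω]
    (h2 : ∀ c : Ω, (2 : Ω) * c = 0 → c = 0) (θpt : T →ₐ[O] Ω)
    (hθ : ∀ t : T, (∀ m, a t m ∈
      LinearMap.range (quotDM (bigLevel Sy 𝔪 H h (s + k)) γ i - 1)) → θpt t = 0)
    -- the diagonalisation at `P ∣ r i₀`
    (P : ValuationSubring Qb) (hP : P.LiesOverPrime (r i₀))
    (Bas : Module.Basis (Fin 2) T ρ.V)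
    (χ : Fin 2 → P.decompositionSubgroup ℚ →* Tˣ)
    (hχ : ∀ (j : Fin 2) (σ : P.decompositionSubgroup ℚ),
      ρ.ρ (σ : GQ) (Bas j) = (χ j σ : T) • Bas j)
    (σ : GQ) (hσ : σ ∈ P.inertiaSubgroupIn ℚ) (hσD : σ ∈ P.decompositionSubgroup ℚ)
    (k' : Fin 2) : θpt (χ k' ⟨σ, hσD⟩ : T) = 1 := by
  have hp : p.Prime := hpF.out
  have hpO : (p : O) ∈ IsLocalRing.maximalIdeal O := by
    rw [h.hmax]
    exact h.hpϖ
  have hS''set : ∀ q : ℕ, q.Prime → q ∣ N'' → q ∈ (↑S : Set ℕ) :=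
    fun q hq hqN => Finset.mem_coe.mpr (hS'' q hq hqN)
  obtain ⟨tw, htw⟩ := GB.P5.LowerInputs.exists_tw_skip_genH (O := O) H hp h.hp2
    (s + k) hjK i₀ hi₀ hN'' (↑S : Set ℕ) hS''set dℓ hdℓ
  obtain ⟨θb, hθb, θ₂, hmatch, -⟩ :=
    GB.P5.LowerTwTower.exists_lower_point_piSkip Sy 𝔪 H h s k i i₀ hi₀ hi₀i
      (fun y hy => GB.P5.LowerInputs.hbnd_skip H Sy 𝔪 h hNsq hp i₀ (s + k) hi₀ y hy)
      (↑S : Set ℕ) dℓ tw htw ev hevC hker𝔪 idx hidx γ hγ a haD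
      (fun l => twT (formsGenS Nt (↑S : Set ℕ) l)) ha θpt hθ
  have hi₀K : i₀ < K := lt_of_lt_of_le hi₀ hjK
  exact GB.P5.OnePtEnd.chi_point_eq_one_of_Tloc_point_gen (p := p) ρ twT hchar θb
    h.hp2 hpO hpS hSt hS'' ρbar habs (fun l => ev (MvPolynomial.X (Sum.inl (idx l)))) hθb hfrob
    θpt θ₂ h2 hmatch (H.prime i₀ hi₀K) hrp
    (GB.P5.SkipLevel.dvd_skip_level H (s + k) hjK i₀ hi₀ hN'')
    (GB.P5.SkipLevel.not_sq_dvd_skip_level H (s + k) hjK i₀ hi₀ hN'')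
    P hP Bas χ hχ σ hσ hσD k'

end GB.P5.OnePtTower

end Fermat.Agent.GE8.P3B
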