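/-
GATE-B / GB-P5-1PT-H1PLUG (helper66): **the `h1` binder of `G4TW1Rev.exists_x_tw1F_rev` at helper11's
G2 objects** (`ProviderFlat/G2`: `T`, `a₁`, `a₂` over `Plug.tw Sy 𝔪 H h s k c hc hc1`, Hecke algebra
of forms `heckeAlgebra Nt 2 ↑S`, `Nt = N * ∏ i : Fin (s + k), r i`, twisted action `twP`).

* `hker_of_hev` : `𝔪 = ker ev` from `𝔪 ≤ ker ev` (`𝔪` maximal);
* `ha_of_twP` : the `ha` binder of `OnePtTower.chi_point_eq_one_tower` (`twT (T_l)` acts as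
  `⟨dℓ l⟩ T_l` on representatives) from the `ι`-characterisation of `twP` (clause 1 of
  `G2.exists_twP_hecke`) and `a (twT t) (fmk x) = fmk (twP t x)`;
* `chi_point_eq_one_of_twP` : `OnePtTower.chi_point_eq_one_tower` in the G2/G3 binder vocabulary
  (`ev hev θA hsym` of `G2.exists_twP_hecke`, `hfrobQ` of `G3Pkg.exists_psi_pkg`), one module;
* **`h1_plug`** : for a point `θpt` of `G2.T …` with `Occ₁ L1 a₁ i θpt ∨ Occ₁ Lχ a₂ i θpt`,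
  `θpt (χ k' ⟨σ, _⟩) = 1` for every inertia element `σ` at `P ∣ r (k - 1 - i)` and every
  diagonalisation `(Bas, χ)` of `ρ|D_P`.
-/
import Fermat.Agent.GE8.P3B.GB.P5.OnePtTower
import Fermat.Agent.GE8.P3B.GB.B9.ProviderFlat.G2
import Fermat.Agent.GB.B9.ProviderFlat.G4
import Fermat.Agent.GE8.P3B.StepGen
import Fermat.Agent.GE8.P3B.Ok3W

/- TWIN (helper6 B4 generator; conventions of helper24 / helper86) of `Fermat.Agent.GB.P5.OnePtPlug` with `p ≠ 3` relaxed to `Ok3A Sy 𝔪 p` / `Ok3W p W` (RISK-5 fix (B), step B4); everything below lives in the wrapper namespace `Fermat.Agent.GE8.P3B`. -/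
set_option linter.dupNamespace false
open Fermat Fermat.Agent Fermat.Agent.Common_helper32 Fermat.Agent.GB Fermat.Agent.GB.B3 Fermat.Agent.GB.B3.ChiLevelMulti Fermat.Agent.GB.B3.CycInst Fermat.Agent.GB.B3.EisGamma0 Fermat.Agent.GB.B3.GamH Fermat.Agent.GB.B3.HeckeAct Fermat.Agent.GB.B3.HeckeActH Fermat.Agent.GB.B3.RealLevel Fermat.Agent.GB.B3.TWChars Fermat.Agent.GB.B3.TWLevel Fermat.Agent.GB.B4 Fermat.Agent.GB.B4.Datum Fermat.Agent.GB.B4.Datum.ImageRing Fermat.Agent.GB.B4.Datum.TQFields Fermat.Agent.GB.B9 Fermat.Agent.GB.B9.ProviderFlat Fermat.Agent.GB.B9.ProviderFlat.G4 Fermat.Agent.GB.P5 Fermat.Agent.GJ Fermat.Agent.GJ.J2 Fermat.Agent.GJ.J2.Lat Fermat.Agent.GJ.J2.ZStruct Fermat.Agent.GM Fermat.Agent.GM.B Fermat.Agent.GM.EisClass Fermat.Agent.S16_helper49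

namespace Fermat.Agent.GE8.P3B

set_option autoImplicit false
set_option linter.unusedSectionVars false
set_option linter.unusedVariables false
set_option linter.style.haveILetI false

open scoped MatrixGroups
open CongruenceSubgroup Matrix Matrix.SpecialLinearGroup ModularCurve.Period CuspForm Polynomial
open S16_helper49 GM.B GM.EisClass
open GB.B3 GB.B3.EisGamma0 GB.B3.GamH
open GB.B3.RealLevel GB.B3.HeckeActH GB.B3.HeckeAct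
open GB.B3.CycInst GB.B3.StepInst GB.B3.TWLevel
open GB.B3.ChiLevelMulti
open GB.B3.Tower GB.B3.Final GB.B3.TWChars
open GB.B3.FinalTW GB.B3.Plug
open GJ.J2.ZStruct GJ.J2.Lat
open GB.B4.Datum.ImageRing GB.B4.Datum.TQFields
open GB.P5.TwSkip
open Common_helper32

namespace GB.P5.OnePtPlug

/-- local instance (Prop-valued class) -/
local instance factPrimeOffOnePt {S : Set ℕ} (l : PrimesOff S) : Fact (l.1 : ℕ).Prime := ⟨l.1.2⟩

/-- `𝔪 = ker ev` as soon as `𝔪 ≤ ker ev`, `𝔪` maximal -/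
theorem hker_of_hev {R κ : Type*} [CommRing R] [CommRing κ] [Nontrivial κ] (𝔪 : Ideal R)
    [𝔪.IsMaximal] (ev : R →+* κ) (hev : ∀ t ∈ 𝔪, ev t = 0) (t : R) : t ∈ 𝔪 ↔ ev t = 0 := by
  refine ⟨hev t, fun ht => ?_⟩
  have hle : 𝔪 ≤ RingHom.ker ev := fun x hx => RingHom.mem_ker.mpr (hev x hx)
  have hne : RingHom.ker ev ≠ ⊤ := RingHom.ker_ne_top ev
  have heq : 𝔪 = RingHom.ker ev := Ideal.IsMaximal.eq_of_le ‹𝔪.IsMaximal› hne hle
  rw [heq]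
  exact RingHom.mem_ker.mpr ht

variable {N p : ℕ} [NeZero N] [hpF : Fact p.Prime] {K : ℕ} {r e N' : ℕ → ℕ}
variable (Sy : Symbols N)
variable {O : Type} [CommRing O] [IsDomain O] [IsDiscreteValuationRing O]
  [IsAdicComplete (IsLocalRing.maximalIdeal O) O] [Module.IsTorsionFree ℤ O]
  [Finite (IsLocalRing.ResidueField O)] [CharZero O]
variable (𝔪 : Ideal (Sy.𝕋 O)) [𝔪.IsMaximal]
variable (H : PrimeData N p K r e N') {ϖ : O} {s0 : Sy.ι₁} (h : Hyp Sy 𝔪 p ϖ s0)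
variable (s k : ℕ)

section One

variable {Nt : ℕ} [NeZero Nt] (S : Finset ℕ)
  (dℓ : PrimesOff (↑S : Set ℕ) → Gamma0 N) (hnd : ∀ l : PrimesOff (↑S : Set ℕ), ¬ (l.1 : ℕ) ∣ N)
  (twP : ↥(heckeAlgebra Nt 2 (↑S : Set ℕ)) →+* Module.End O (bigLevel Sy 𝔪 H h (s + k)).M)
  (hι : ∀ (l : PrimesOff (↑S : Set ℕ)) (x : (bigLevel Sy 𝔪 H h (s + k)).M),
    (bigReal Sy 𝔪 H h (s + k)).ι (twP (formsGenS Nt (↑S : Set ℕ) l) x) =
      diaH (Theta (Δs p e) H.psi (s + k)) O (dℓ l)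
        (TH (Theta (Δs p e) H.psi (s + k)) O (hnd l) ((bigReal Sy 𝔪 H h (s + k)).ι x)))

include hι in
/-- the `ha` binder of `OnePtTower.chi_point_eq_one_tower` from the `ι`-characterisation of `twP` -/
theorem ha_of_twP (idx : PrimesOff (↑S : Set ℕ) → Sy.ι₁) (hidx : ∀ l, Sy.ℓ (idx l) = (l.1 : ℕ))
    (γ : Fin s → O) {T : Type} [CommRing T] [Algebra O T]
    (a : T →ₐ[O] Module.End O (FamCoinv (frD (bigLevel Sy 𝔪 H h (s + k))) γ))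
    (twT : ↥(heckeAlgebra Nt 2 (↑S : Set ℕ)) →+* T)
    (hfmk : ∀ t x, a (twT t) (fmk (frD (bigLevel Sy 𝔪 H h (s + k))) γ x)
      = fmk (frD (bigLevel Sy 𝔪 H h (s + k))) γ (twP t x))
    (l : PrimesOff (↑S : Set ℕ)) (x x' : (bigLevel Sy 𝔪 H h (s + k)).M)
    (hx : (bigReal Sy 𝔪 H h (s + k)).ι x'
        = (diaLin O (Theta (Δs p e) H.psi (s + k)) (dℓ l)
            * actH Sy O (Theta (Δs p e) H.psi (s + k)) (MvPolynomial.X (Sum.inl (idx l))))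
          ((bigReal Sy 𝔪 H h (s + k)).ι x)) :
    a (twT (formsGenS Nt (↑S : Set ℕ) l)) (fmk (frD (bigLevel Sy 𝔪 H h (s + k))) γ x)
      = fmk (frD (bigLevel Sy 𝔪 H h (s + k))) γ x' := by
  rw [hfmk]
  congr 1
  apply (bigReal Sy 𝔪 H h (s + k)).inj
  haveI := Sy.factℓ (idx l)
  rw [hι, hx, Module.End.mul_apply, diaLin_apply, actH_X_inl]
  exact congrArg _ (GB.B9.ProviderFlat.G2.TH_congr (Theta (Δs p e) H.psi (s + k)) O
    (hidx l).symm (hnd l) (Sy.hℓN (idx l)) _)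

end One

section Main

variable {Nt : ℕ} [NeZero Nt] (hNt : Nt = N * ∏ i : Fin (s + k), r i) (S : Finset ℕ)
  (dℓ : PrimesOff (↑S : Set ℕ) → Gamma0 N) (hnd : ∀ l : PrimesOff (↑S : Set ℕ), ¬ (l.1 : ℕ) ∣ N)
  (twP : ↥(heckeAlgebra Nt 2 (↑S : Set ℕ)) →+* Module.End O (bigLevel Sy 𝔪 H h (s + k)).M)
  (hι : ∀ (l : PrimesOff (↑S : Set ℕ)) (x : (bigLevel Sy 𝔪 H h (s + k)).M),
    (bigReal Sy 𝔪 H h (s + k)).ι (twP (formsGenS Nt (↑S : Set ℕ) l) x) =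
      diaH (Theta (Δs p e) H.psi (s + k)) O (dℓ l)
        (TH (Theta (Δs p e) H.psi (s + k)) O (hnd l) ((bigReal Sy 𝔪 H h (s + k)).ι x)))

include hNt in
/-- the skipped forms level divides the top forms level -/
theorem skip_level_dvd (hjK : s + k ≤ K) (i₀ : ℕ) (hi₀ : i₀ < s + k) :
    N * ∏ i' : Fin (s + k - 1), r (skip i₀ i') ∣ Nt := by
  rw [hNt]
  refine Nat.mul_dvd_mul_left N ?_
  classical
  -- the product over the skipped indices is a sub-product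
  have hinj : Function.Injective fun i' : Fin (s + k - 1) =>
      (⟨skip i₀ (i' : ℕ), skip_lt hi₀ i'.2⟩ : Fin (s + k)) := fun a b hab =>
    Fin.ext (skip_injective i₀ (congrArg (fun z : Fin (s + k) => (z : ℕ)) hab))
  have h1 : ∏ i' : Fin (s + k - 1), r (skip i₀ i')
      = ∏ z ∈ Finset.univ.image (fun i' : Fin (s + k - 1) =>
          (⟨skip i₀ (i' : ℕ), skip_lt hi₀ i'.2⟩ : Fin (s + k))), r z := by
    rw [Finset.prod_image (fun a _ b _ hab => hinj hab)]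
  rw [h1]
  exact Finset.prod_dvd_prod_of_subset _ _ _ (Finset.subset_univ _)

include hNt hι in
/-- **(1pt) at the big level of B3, G2/G3 binder vocabulary, one module** (`γ`, `a`, `hfmk`). -/
theorem chi_point_eq_one_of_twP (hNsq : Squarefree N) (hjK : s + k ≤ K)
    (hpS : p ∈ S) (hSt : ∀ q : ℕ, q.Prime → q ∣ Nt → q ∈ S)
    (hdℓ : ∀ (l : PrimesOff (↑S : Set ℕ)) (u : (ZMod N)ˣ),
      (u : ZMod N) = ((l.1 : ℕ) : ZMod N) →
      chi (Theta (Δs p e) H.psi (s + k)) (dℓ l) ^ 2 * Theta (Δs p e) H.psi (s + k) u = 1)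
    -- G2 : the residual evaluation and the residual character
    (ev : Sy.𝕋 O →ₐ[O] IsLocalRing.ResidueField O) (hev : ∀ t ∈ 𝔪, ev t = 0)
    (θA : ↥(heckeAlgebra Nt 2 (↑S : Set ℕ)) →+* IsLocalRing.ResidueField O)
    (hsym : ∀ l : PrimesOff (↑S : Set ℕ), ∃ i : Sy.ι₁, Sy.ℓ i = (l.1 : ℕ) ∧
      θA (formsGenS Nt (↑S : Set ℕ) l) = ev (MvPolynomial.X (Sum.inl i)))
    -- G2 : the Hecke ring and its action on the module
    (γ : Fin s → O) (hγ : ∀ v, γ v ^ Nfun p e (s + k) (Fin.castAdd k v) = 1)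
    {T : Type} [CommRing T] [IsLocalRing T] [IsNoetherianRing T] [Algebra O T]
    [Algebra.IsIntegral O T]
    (a : T →ₐ[O] Module.End O (FamCoinv (frD (bigLevel Sy 𝔪 H h (s + k))) γ))
    (i : Fin k)
    (haD : ∀ t, a t * quotDM (bigLevel Sy 𝔪 H h (s + k)) γ i
      = quotDM (bigLevel Sy 𝔪 H h (s + k)) γ i * a t)
    (twT : ↥(heckeAlgebra Nt 2 (↑S : Set ℕ)) →+* T)
    (hfmk : ∀ t x, a (twT t) (fmk (frD (bigLevel Sy 𝔪 H h (s + k))) γ x)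
      = fmk (frD (bigLevel Sy 𝔪 H h (s + k))) γ (twP t x))
    -- G3 : the Galois representation over `T`
    (ρ : GaloisRepAdic T)
    (hchar : ∀ (ℓ : ℕ) (hℓ : ℓ.Prime) (hℓN : ¬ ℓ ∣ Nt) (hℓS : ℓ ∉ (↑S : Set ℕ))
      (A : ValuationSubring Qb), A.LiesOverPrime ℓ → ∀ σ : GQ, A.IsFrobeniusAt σ ℓ →
        LinearMap.charpoly (ρ.ρ σ) =
          X ^ 2 - C (twT (heckeAlgebra.T hℓ hℓN hℓS)) * X + C ((ℓ : T)))
    -- the residual representation (the `hfrobQ` binder of `G3Pkg.exists_psi_pkg`, up to `d₀`)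
    (ρbar : ResidualGaloisRep (IsLocalRing.ResidueField O)) (habs : ρbar.IsAbsolutelyIrreducible)
    (hfrobQ : ∀ (ℓ : ℕ) (hℓ : ℓ.Prime) (hℓN : ¬ ℓ ∣ Nt) (hℓS : ℓ ∉ (↑S : Set ℕ))
      (Q : ValuationSubring Qb), Q.LiesOverPrime ℓ → ∀ σ : GQ, Q.IsFrobeniusAt σ ℓ →
        ∃ d₀ : IsLocalRing.ResidueField O, LinearMap.charpoly (ρbar.ρ σ) =
          X ^ 2 - C (θA (heckeAlgebra.T hℓ hℓN hℓS)) * X + C d₀)
    -- the point
    {Ω : Type} [CommRing Ω] [IsReduced Ω] [Nontrivial Ω] [Algebra O Ω]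
    (h2 : ∀ c : Ω, (2 : Ω) * c = 0 → c = 0) (θpt : T →ₐ[O] Ω)
    (hθ : ∀ t : T, (∀ m, a t m ∈
      LinearMap.range (quotDM (bigLevel Sy 𝔪 H h (s + k)) γ i - 1)) → θpt t = 0)
    (hrp : r (k - 1 - (i : ℕ)) ≠ p)
    (P : ValuationSubring Qb) (hP : P.LiesOverPrime (r (k - 1 - (i : ℕ))))
    (Bas : Module.Basis (Fin 2) T ρ.V)
    (χ : Fin 2 → P.decompositionSubgroup ℚ →* Tˣ)
    (hχ : ∀ (j : Fin 2) (σ : P.decompositionSubgroup ℚ),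
      ρ.ρ (σ : GQ) (Bas j) = (χ j σ : T) • Bas j)
    (σ : GQ) (hσ : σ ∈ P.inertiaSubgroupIn ℚ) (hσD : σ ∈ P.decompositionSubgroup ℚ)
    (k' : Fin 2) : θpt (χ k' ⟨σ, hσD⟩ : T) = 1 := by
  classical
  have hi₀ : k - 1 - (i : ℕ) < s + k := by have := i.2; omega
  -- the lower forms level
  have hdvd := skip_level_dvd (r := r) s k hNt hjK (k - 1 - (i : ℕ)) hi₀
  haveI : NeZero (N * ∏ i' : Fin (s + k - 1), r (skip (k - 1 - (i : ℕ)) i')) :=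
    ⟨fun h0 => NeZero.ne Nt (Nat.eq_zero_of_zero_dvd (h0 ▸ hdvd))⟩
  have hS'' : ∀ q : ℕ, q.Prime →
      q ∣ N * ∏ i' : Fin (s + k - 1), r (skip (k - 1 - (i : ℕ)) i') → q ∈ S :=
    fun q hq hqN => hSt q hq (dvd_trans hqN hdvd)
  -- the symbol index
  choose idx hidx hθA using hsym
  have hfrob : ∀ l : PrimesOff (↑S : Set ℕ),
      ∀ P : ValuationSubring Qb, P.LiesOverPrime (l.1 : ℕ) → ∀ σ : GQ,
        P.IsFrobeniusAt σ (l.1 : ℕ) →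
        ∃ d₀ : IsLocalRing.ResidueField O, LinearMap.charpoly (ρbar.ρ σ)
          = X ^ 2 - C ((ev : Sy.𝕋 O →+* IsLocalRing.ResidueField O)
              (MvPolynomial.X (Sum.inl (idx l)))) * X + C d₀ := by
    intro l P' hP' σ' hσ'
    have hlN : ¬ (l.1 : ℕ) ∣ Nt := fun hd => l.2 (Finset.mem_coe.mpr (hSt _ l.1.2 hd))
    obtain ⟨d₀, hd₀⟩ := hfrobQ (l.1 : ℕ) l.1.2 hlN l.2 P' hP' σ' hσ'
    refine ⟨d₀, ?_⟩
    rw [hd₀, ← formsGenS_of_not_dvd Nt (↑S : Set ℕ) l hlN, hθA l]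
    rfl
  exact GB.P5.OnePtTower.chi_point_eq_one_tower Sy 𝔪 H h s k hNsq hjK i
    (k - 1 - (i : ℕ)) hi₀ rfl hrp rfl S hpS hS'' hSt dℓ hdℓ
    (ev : Sy.𝕋 O →+* IsLocalRing.ResidueField O)
    (fun c => by
      have h1 : (MvPolynomial.C c : Sy.𝕋 O) = algebraMap O (Sy.𝕋 O) c := rfl
      rw [h1]
      exact ev.commutes c)
    (hker_of_hev 𝔪 (ev : Sy.𝕋 O →+* IsLocalRing.ResidueField O) hev) idx hidx γ hγ a haD twT
    (ha_of_twP Sy 𝔪 H h s k S dℓ hnd twP hι idx hidx γ a twT hfmk)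
    ρ hchar ρbar habs hfrob h2 θpt hθ P hP Bas χ hχ σ hσ hσD k'

end Main

/-! ### at helper11's G2 objects -/

section AtG2

open GB.B9.ProviderFlat.G2 GB.B9.ProviderFlat.G4

variable (c : Fin s → O) (hc : ∀ v : Fin s, c v ^ p ^ e (s + k - 1 - v) = 1)
  (hc1 : ∀ v, (1 : O) - c v ∈ Ideal.span {ϖ})
  {Nt : ℕ} [NeZero Nt] (hNt : Nt = N * ∏ i : Fin (s + k), r i) {S : Finset ℕ}
  (dℓ : PrimesOff (↑S : Set ℕ) → Gamma0 N) (hnd : ∀ l : PrimesOff (↑S : Set ℕ), ¬ (l.1 : ℕ) ∣ N)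
  (twP : ↥(heckeAlgebra Nt 2 (↑S : Set ℕ)) →+* Module.End O (bigLevel Sy 𝔪 H h (s + k)).M)
  (hι : ∀ (l : PrimesOff (↑S : Set ℕ)) (x : (bigLevel Sy 𝔪 H h (s + k)).M),
    (bigReal Sy 𝔪 H h (s + k)).ι (twP (formsGenS Nt (↑S : Set ℕ) l) x) =
      diaH (Theta (Δs p e) H.psi (s + k)) O (dℓ l)
        (TH (Theta (Δs p e) H.psi (s + k)) O (hnd l) ((bigReal Sy 𝔪 H h (s + k)).ι x)))
  (hD : ∀ t i, twP t * (bigLevel Sy 𝔪 H h (s + k)).D i =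
    (bigLevel Sy 𝔪 H h (s + k)).D i * twP t)
  (θA : ↥(heckeAlgebra Nt 2 (↑S : Set ℕ)) →+* IsLocalRing.ResidueField O)

include hNt hι in
/-- **the `h1` binder of `G4TW1Rev.exists_x_tw1F_rev` at helper11's G2 objects** (generic
`Plug.tw Sy 𝔪 H h s k c hc hc1`): the module index `i` goes with the prime `r (k - 1 - i)`. -/
theorem h1_plug (hNsq : Squarefree N) (hjK : s + k ≤ K)
    (hpS : p ∈ S) (hSt : ∀ q : ℕ, q.Prime → q ∣ Nt → q ∈ S)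
    (hdℓ : ∀ (l : PrimesOff (↑S : Set ℕ)) (u : (ZMod N)ˣ),
      (u : ZMod N) = ((l.1 : ℕ) : ZMod N) →
      chi (Theta (Δs p e) H.psi (s + k)) (dℓ l) ^ 2 * Theta (Δs p e) H.psi (s + k) u = 1)
    (ev : Sy.𝕋 O →ₐ[O] IsLocalRing.ResidueField O) (hev : ∀ t ∈ 𝔪, ev t = 0)
    (hsym : ∀ l : PrimesOff (↑S : Set ℕ), ∃ i : Sy.ι₁, Sy.ℓ i = (l.1 : ℕ) ∧
      θA (formsGenS Nt (↑S : Set ℕ) l) = ev (MvPolynomial.X (Sum.inl i)))
    [IsLocalRing (T Sy 𝔪 H h s k c hc hc1 twP hD θA)]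
    [IsNoetherianRing (T Sy 𝔪 H h s k c hc hc1 twP hD θA)]
    [Algebra.IsIntegral O (T Sy 𝔪 H h s k c hc hc1 twP hD θA)]
    (ρ : GaloisRepAdic (T Sy 𝔪 H h s k c hc hc1 twP hD θA))
    (hchar : ∀ (ℓ : ℕ) (hℓ : ℓ.Prime) (hℓN : ¬ ℓ ∣ Nt) (hℓS : ℓ ∉ (↑S : Set ℕ))
      (A : ValuationSubring Qb), A.LiesOverPrime ℓ → ∀ σ : GQ, A.IsFrobeniusAt σ ℓ →
        LinearMap.charpoly (ρ.ρ σ) =
          X ^ 2 - C (GB.B4.Datum.ImageRing.chi O θA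
            (prodTw O (tw₁ Sy 𝔪 H h s k c hc hc1 twP hD) (twχ Sy 𝔪 H h s k c hc hc1 twP hD))
            (heckeAlgebra.T hℓ hℓN hℓS)) * X
            + C ((ℓ : T Sy 𝔪 H h s k c hc hc1 twP hD θA)))
    (ρbar : ResidualGaloisRep (IsLocalRing.ResidueField O)) (habs : ρbar.IsAbsolutelyIrreducible)
    (hfrobQ : ∀ (ℓ : ℕ) (hℓ : ℓ.Prime) (hℓN : ¬ ℓ ∣ Nt) (hℓS : ℓ ∉ (↑S : Set ℕ))
      (Q : ValuationSubring Qb), Q.LiesOverPrime ℓ → ∀ σ : GQ, Q.IsFrobeniusAt σ ℓ →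
        ∃ d₀ : IsLocalRing.ResidueField O, LinearMap.charpoly (ρbar.ρ σ) =
          X ^ 2 - C (θA (heckeAlgebra.T hℓ hℓN hℓS)) * X + C d₀)
    {Ω : Type} [CommRing Ω] [IsReduced Ω] [Nontrivial Ω] [Algebra O Ω]
    (h2 : ∀ c : Ω, (2 : Ω) * c = 0 → c = 0)
    (i : Fin k) (hrp : r (k - 1 - (i : ℕ)) ≠ p)
    (P : ValuationSubring Qb) (hP : P.LiesOverPrime (r (k - 1 - (i : ℕ))))
    (σ : GQ) (hσ : σ ∈ P.inertiaSubgroupIn ℚ) (hσD : σ ∈ P.decompositionSubgroup ℚ)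
    (Bas : Module.Basis (Fin 2) (T Sy 𝔪 H h s k c hc hc1 twP hD θA) ρ.V)
    (χ : Fin 2 → P.decompositionSubgroup ℚ →* (T Sy 𝔪 H h s k c hc hc1 twP hD θA)ˣ)
    (hχ : ∀ (j : Fin 2) (τ : P.decompositionSubgroup ℚ),
      ρ.ρ (τ : GQ) (Bas j) = (χ j τ : T Sy 𝔪 H h s k c hc hc1 twP hD θA) • Bas j)
    (θpt : T Sy 𝔪 H h s k c hc hc1 twP hD θA →ₐ[O] Ω)
    (hocc : Occ₁ (tw Sy 𝔪 H h s k c hc hc1).L1 (a₁ Sy 𝔪 H h s k c hc hc1 twP hD θA) i θpt ∨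
      Occ₁ (tw Sy 𝔪 H h s k c hc hc1).Lχ (a₂ Sy 𝔪 H h s k c hc hc1 twP hD θA) i θpt)
    (k' : Fin 2) :
    θpt (χ k' ⟨σ, hσD⟩ : T Sy 𝔪 H h s k c hc hc1 twP hD θA) = 1 := by
  rcases hocc with h1 | h1
  · exact chi_point_eq_one_of_twP Sy 𝔪 H h s k hNt S dℓ hnd twP hι hNsq hjK hpS hSt hdℓ ev hev θA
      hsym (fun _ => (1 : O)) (fun _ => one_pow _) (a₁ Sy 𝔪 H h s k c hc hc1 twP hD θA) i
      (fun t => a₁_D Sy 𝔪 H h s k c hc hc1 twP hD θA t i)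
      (GB.B4.Datum.ImageRing.chi O θA
        (prodTw O (tw₁ Sy 𝔪 H h s k c hc hc1 twP hD) (twχ Sy 𝔪 H h s k c hc hc1 twP hD)))
      (fun t x => (LinearMap.congr_fun (a₁_chi Sy 𝔪 H h s k c hc hc1 twP hD θA t) _).trans
        (tw₁_fmk Sy 𝔪 H h s k c hc hc1 twP hD t x)) ρ hchar ρbar habs hfrobQ h2 θpt h1 hrp P hP Bas χ hχ σ hσ hσD
      k'
  · exact chi_point_eq_one_of_twP Sy 𝔪 H h s k hNt S dℓ hnd twP hι hNsq hjK hpS hSt hdℓ ev hev θA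
      hsym c (hc_Nfun s k c hc) (a₂ Sy 𝔪 H h s k c hc hc1 twP hD θA) i
      (fun t => a₂_D Sy 𝔪 H h s k c hc hc1 twP hD θA t i)
      (GB.B4.Datum.ImageRing.chi O θA
        (prodTw O (tw₁ Sy 𝔪 H h s k c hc hc1 twP hD) (twχ Sy 𝔪 H h s k c hc hc1 twP hD)))
      (fun t x => (LinearMap.congr_fun (a₂_chi Sy 𝔪 H h s k c hc hc1 twP hD θA t) _).trans
        (twχ_fmk Sy 𝔪 H h s k c hc hc1 twP hD t x)) ρ hchar ρbar habs hfrobQ h2 θpt h1 hrp P hP Bas χ hχ σ hσ hσD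
      k'

end AtG2

end GB.P5.OnePtPlug

end Fermat.Agent.GE8.P3B
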